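import Fermat.Agent.S21.Interface
import Mathlib

set_option autoImplicit false

open UpperHalfPlane CongruenceSubgroup Filter Topology ModularCurve ModularCurve.Period
open scoped MatrixGroups ModularForm Manifold

namespace Fermat.Agent.S21

/-- PER-2a: a function on the upper half plane with vanishing derivative is constant. -/
theorem const_of_hasDerivAt_zero : Stmt_const_of_hasDerivAt_zero := by
  intro F hF z w
  have hopen : IsOpen upperHalfPlaneSet := isOpen_upperHalfPlaneSet
  have hconv : Convex ℝ upperHalfPlaneSet := convex_halfSpace_im_gt 0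
  have hdiff : DifferentiableOn ℂ (F ∘ ofComplex) upperHalfPlaneSet := by
    intro x hx
    have := hF ⟨x, hx⟩
    exact this.differentiableAt.differentiableWithinAt
  have hderiv : Set.EqOn (deriv (F ∘ ofComplex)) 0 upperHalfPlaneSet := by
    intro x hx
    exact (hF ⟨x, hx⟩).deriv
  have key := hopen.is_const_of_deriv_eq_zero hconv.isPreconnected hdiff hderiv
    (x := (z : ℂ)) (y := (w : ℂ)) z.im_pos w.im_pos
  simpa using key

/-- PER-2b: chain rule for the Moebius action of `SL(2, ℤ)`. -/
theorem hasDerivAt_comp_smul : Stmt_hasDerivAt_comp_smul := by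
  intro F f hF γ τ
  set g : GL (Fin 2) ℝ := (γ : GL (Fin 2) ℝ) with hg
  have hdet : g.val.det = 1 := by
    rw [← Matrix.GeneralLinearGroup.val_det_apply]; simp [hg]
  have hpos : 0 < g.val.det := by rw [hdet]; exact one_pos
  have h_smul : HasDerivAt (fun w ↦ ↑(g • ofComplex w) : ℂ → ℂ)
      ((g.val.det : ℂ) / denom g τ ^ 2) ↑τ := (hasStrictDerivAt_smul hpos τ).hasDerivAt
  have h_F : HasDerivAt (F ∘ ofComplex) (f (g • τ)) ↑(g • ofComplex (τ : ℂ)) := by
    rw [ofComplex_apply]
    exact hF (g • τ)
  have hcomp := h_F.comp (τ : ℂ) h_smul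
  have heq : ((fun w : ℍ => F (γ • w)) ∘ ofComplex) =
      ((F ∘ ofComplex) ∘ fun w ↦ ↑(g • ofComplex w) : ℂ → ℂ) := by
    funext w
    simp only [Function.comp_apply, ofComplex_apply]
    rfl
  rw [heq]
  have hval : (f ∣[(2 : ℤ)] γ) τ = f (g • τ) * ((g.val.det : ℂ) / denom g τ ^ 2) := by
    rw [hdet, ModularForm.SL_slash_apply]
    simp only [Complex.ofReal_one, one_div]
    rw [zpow_neg]
    rfl
  rw [hval]
  exact hcomp

end Fermat.Agent.S21
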