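import Fermat.Agent.S21.Interface
import Fermat.Prelude.Thm_Subgroup_IsArithmetic_exists_nat_mem_strictPeriods_conj

set_option autoImplicit false

open UpperHalfPlane CongruenceSubgroup Filter Topology ModularCurve ModularCurve.Period
open scoped MatrixGroups ModularForm Manifold

namespace Fermat.Agent.S21

/-- For a weight two cusp form `f` on `Γ₀(N)` and `δ ∈ SL(2,ℤ)`, the translate `f ∣[2] δ` has a
primitive tending to `0` at `i∞`. -/
theorem exists_primitive_slash (h1 : Stmt_exists_primitive_of_periodic)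
    (N : ℕ) [NeZero N] (f : CuspForm (Gamma0 N) 2) (δ : SL(2, ℤ)) :
    ∃ H : ℍ → ℂ, (∀ τ : ℍ, HasDerivAt (H ∘ ofComplex) (((f : ℍ → ℂ) ∣[(2 : ℤ)] δ) τ) ↑τ) ∧
      Tendsto H atImInfty (𝓝 0) := by
  obtain ⟨M, hM, hper⟩ := Subgroup.IsArithmetic.exists_nat_mem_strictPeriods_conj
    ((Gamma0 N : Subgroup SL(2, ℤ)).map (Matrix.SpecialLinearGroup.mapGL ℝ))
  have hperδ := hper δ⁻¹
  refine h1 (M : ℝ) (by exact_mod_cast hM) ((f : ℍ → ℂ) ∣[(2 : ℤ)] δ) ?_ ?_ ?_
  · exact (CuspForm.translate f (Matrix.SpecialLinearGroup.mapGL ℝ δ)).holo'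
  · intro z
    have := SlashInvariantForm.vAdd_apply_of_mem_strictPeriods
      (CuspForm.translate f (Matrix.SpecialLinearGroup.mapGL ℝ δ)) z (h := (M : ℝ))
      (by simpa using hperδ)
    exact this
  · exact CuspFormClass.zero_at_infty_slash f δ

/-- PER-3. -/
theorem exists_hasEquivariantPrimitive (h1 : Stmt_exists_primitive_of_periodic)
    (h2a : Stmt_const_of_hasDerivAt_zero) (h2b : Stmt_hasDerivAt_comp_smul) :
    Stmt_exists_hasEquivariantPrimitive := by
  intro N _ f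
  obtain ⟨F, hF, hF0⟩ := exists_primitive_slash h1 N f 1
  have hF' : ∀ τ : ℍ, HasDerivAt (F ∘ ofComplex) (f τ) ↑τ := by
    intro τ
    have := hF τ
    rwa [SlashAction.slash_one] at this
  refine ⟨F, hF', hF0, ?_, ?_⟩
  · intro γ
    refine ⟨F ((γ : SL(2, ℤ)) • I) - F I, fun z => ?_⟩
    have hγ : (f : ℍ → ℂ) ∣[(2 : ℤ)] (γ : SL(2, ℤ)) = f := by
      have := SlashInvariantForm.slash_action_eqn f
        (Matrix.SpecialLinearGroup.mapGL ℝ (γ : SL(2, ℤ))) ⟨γ, γ.2, rfl⟩
      exact this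
    have hd : ∀ τ : ℍ, HasDerivAt ((fun w : ℍ => F ((γ : SL(2, ℤ)) • w) - F w) ∘ ofComplex) 0 ↑τ := by
      intro τ
      have h := (h2b F f hF' γ τ).sub (hF' τ)
      rw [hγ, sub_self] at h
      exact h
    exact h2a _ hd z I
  · intro δ
    obtain ⟨H, hH, hH0⟩ := exists_primitive_slash h1 N f δ
    have hd : ∀ τ : ℍ, HasDerivAt ((fun w : ℍ => F (δ • w) - H w) ∘ ofComplex) 0 ↑τ := by
      intro τ
      have h := (h2b F f hF' δ τ).sub (hH τ)
      rw [sub_self] at h
      exact h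
    refine ⟨F (δ • I) - H I, ?_⟩
    have heq : (fun w : ℍ => F (δ • w)) = fun w => (F (δ • I) - H I) + H w := by
      funext w
      have := h2a _ hd w I
      linear_combination this
    rw [heq]
    simpa using hH0.const_add (F (δ • I) - H I)

end Fermat.Agent.S21
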