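import Fermat.Agent.S21.Interface

set_option autoImplicit false

open UpperHalfPlane CongruenceSubgroup Filter Topology ModularCurve ModularCurve.Period
open scoped MatrixGroups ModularForm Manifold

namespace Fermat.Agent.S21

/-- PER-4a: the period map is computed by any equivariant primitive. -/
theorem periodMap_apply (h2a : Stmt_const_of_hasDerivAt_zero) : Stmt_periodMap_apply := by
  intro N _ f F hF γ z
  obtain ⟨F₀, h₀, hper⟩ := periodMap_def N f hF
  rw [hper, IsEquivariantPrimitive.periodHom_apply, ← h₀.2.2.1.sub_eq_period γ z]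
  have hconst := h2a (fun w => F w - F₀ w) (fun τ => by
    have h := (hF.1 τ).sub (h₀.1 τ)
    rw [sub_self] at h
    exact h)
  have h1 := hconst ((γ : SL(2, ℤ)) • z) z
  linear_combination -h1

theorem hasEquivariantPrimitive_add {N : ℕ} {f g : CuspForm (Gamma0 N) 2} {F G : ℍ → ℂ}
    (hF : HasEquivariantPrimitive N f F) (hG : HasEquivariantPrimitive N g G) :
    HasEquivariantPrimitive N (f + g) (fun z => F z + G z) := by
  refine ⟨fun τ => ?_, ?_, fun γ => ?_, fun δ => ?_⟩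
  · exact (hF.1 τ).add (hG.1 τ)
  · simpa using hF.2.1.add hG.2.1
  · obtain ⟨c, hc⟩ := hF.2.2.1 γ
    obtain ⟨d, hd⟩ := hG.2.2.1 γ
    exact ⟨c + d, fun z => by rw [← hc z, ← hd z]; ring⟩
  · obtain ⟨L, hL⟩ := hF.2.2.2 δ
    obtain ⟨M, hM⟩ := hG.2.2.2 δ
    exact ⟨L + M, hL.add hM⟩

theorem hasEquivariantPrimitive_smul {N : ℕ} {f : CuspForm (Gamma0 N) 2} {F : ℍ → ℂ}
    (c : ℂ) (hF : HasEquivariantPrimitive N f F) :
    HasEquivariantPrimitive N (c • f) (fun z => c * F z) := by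
  refine ⟨fun τ => ?_, ?_, fun γ => ?_, fun δ => ?_⟩
  · exact (hF.1 τ).const_mul c
  · simpa using hF.2.1.const_mul c
  · obtain ⟨d, hd⟩ := hF.2.2.1 γ
    exact ⟨c * d, fun z => by rw [← hd z]; ring⟩
  · obtain ⟨L, hL⟩ := hF.2.2.2 δ
    exact ⟨c * L, hL.const_mul c⟩

/-- PER-4b: the period map is linear. -/
theorem existsPeriodMapLinear (h2a : Stmt_const_of_hasDerivAt_zero)
    (h3 : Stmt_exists_hasEquivariantPrimitive) : Stmt_existsPeriodMapLinear := by
  intro N _
  have h4 := periodMap_apply h2a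
  refine ⟨{ toFun := periodMap N, map_add' := fun f g => ?_, map_smul' := fun c f => ?_ },
    fun f => rfl⟩
  · obtain ⟨F, hF⟩ := h3 N f
    obtain ⟨G, hG⟩ := h3 N g
    refine AddMonoidHom.ext fun γ => ?_
    obtain ⟨γ, rfl⟩ := Additive.ofMul.surjective γ
    rw [AddMonoidHom.add_apply, h4 N f F hF γ UpperHalfPlane.I, h4 N g G hG γ UpperHalfPlane.I,
      h4 N (f + g) _ (hasEquivariantPrimitive_add hF hG) γ UpperHalfPlane.I]
    ring
  · obtain ⟨F, hF⟩ := h3 N f
    refine AddMonoidHom.ext fun γ => ?_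
    obtain ⟨γ, rfl⟩ := Additive.ofMul.surjective γ
    rw [RingHom.id_apply, AddMonoidHom.smul_apply, h4 N f F hF γ UpperHalfPlane.I,
      h4 N (c • f) _ (hasEquivariantPrimitive_smul c hF) γ UpperHalfPlane.I, smul_eq_mul]
    ring

end Fermat.Agent.S21
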