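import Fermat.Agent.S21.Interface

set_option autoImplicit false

open UpperHalfPlane CongruenceSubgroup Filter Topology ModularCurve ModularCurve.Period
open scoped MatrixGroups ModularForm Manifold

namespace Fermat.Agent.S21

open Function in
/-- Periodicity on `ℍ` gives periodicity of `f ∘ ofComplex` on `ℂ`. -/
theorem periodic_comp_ofComplex_of_vadd (h : ℝ) (f : ℍ → ℂ) (hper : ∀ z : ℍ, f (h +ᵥ z) = f z) :
    Periodic (f ∘ ofComplex) (h : ℂ) := by
  intro w
  by_cases hw : 0 < Complex.im w
  · have hw' : 0 < Complex.im (w + h) := by simp [hw]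
    simp only [comp_apply, ofComplex_apply_of_im_pos hw', ofComplex_apply_of_im_pos hw]
    rw [← hper ⟨w, hw⟩]
    congr 1
    ext
    simp [add_comm]
  · have hw0 : Complex.im w ≤ 0 := not_lt.mp hw
    have hw' : Complex.im (w + h) ≤ 0 := by simpa using hw0
    simp [ofComplex_apply_of_im_nonpos hw', ofComplex_apply_of_im_nonpos hw0]

/-- PER-1. -/
theorem exists_primitive_of_periodic : Stmt_exists_primitive_of_periodic := by
  intro h hh f hf hper hzero
  have hP := periodic_comp_ofComplex_of_vadd h f hper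
  set φ : ℂ → ℂ := cuspFunction h f with hφ
  have hφdiff : DifferentiableOn ℂ φ (Metric.ball 0 1) :=
    differentiableOn_cuspFunction_ball hh hP hf hzero.isBoundedAtImInfty
  have hφ0 : φ 0 = 0 := by
    have han := analyticAt_cuspFunction_zero hh hP hf hzero.isBoundedAtImInfty
    rw [hφ, cuspFunction_apply_zero hh han hP, hzero.valueAtInfty_eq_zero]
  have hball : Metric.ball (0 : ℂ) 1 ∈ 𝓝 (0 : ℂ) := Metric.ball_mem_nhds _ one_pos
  have hφ1 : DifferentiableOn ℂ (dslope φ 0) (Metric.ball 0 1) :=
    (Complex.differentiableOn_dslope hball).mpr hφdiff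
  set c : ℂ := (h : ℂ) / (2 * Real.pi * Complex.I) with hc
  have hφ2 : DifferentiableOn ℂ (fun q => c * dslope φ 0 q) (Metric.ball 0 1) :=
    hφ1.const_mul c
  obtain ⟨W, hW0, hW⟩ := (hφ2.isExactOn_ball).with_val_at 0 0
  refine ⟨fun z => W (Function.Periodic.qParam h z), ?_, ?_⟩
  · intro τ
    have hq : Function.Periodic.qParam h (τ : ℂ) ∈ Metric.ball (0 : ℂ) 1 := by
      simpa using Function.Periodic.norm_qParam_lt_one hh τ.im_pos
    have hWq := hW _ hq
    have qdiff : HasDerivAt (Function.Periodic.qParam h)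
        (Function.Periodic.qParam h (τ : ℂ) * (2 * Real.pi * Complex.I / h)) (τ : ℂ) := by
      have := (((hasDerivAt_id (τ : ℂ)).const_mul (2 * Real.pi * Complex.I)).div_const
        (h : ℂ)).cexp
      simpa only [id_eq, mul_one] using! this
    have hcomp := hWq.comp (τ : ℂ) qdiff
    have hval : c * dslope φ 0 (Function.Periodic.qParam h (τ : ℂ)) *
        (Function.Periodic.qParam h (τ : ℂ) * (2 * Real.pi * Complex.I / h)) = f τ := by
      have h1 := sub_smul_dslope φ 0 (Function.Periodic.qParam h (τ : ℂ))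
      rw [hφ0, sub_zero, sub_zero, smul_eq_mul, hφ, eq_cuspFunction τ hh.ne' hP] at h1
      have hh' : (h : ℂ) ≠ 0 := by exact_mod_cast hh.ne'
      have hpi : (2 * Real.pi * Complex.I : ℂ) ≠ 0 := Complex.two_pi_I_ne_zero
      rw [← h1, hc, hφ]
      field_simp
    rw [hval] at hcomp
    refine hcomp.congr_of_eventuallyEq ?_
    have hopen : {z : ℂ | 0 < z.im} ∈ 𝓝 (τ : ℂ) :=
      (isOpen_lt continuous_const Complex.continuous_im).mem_nhds τ.im_pos
    filter_upwards [hopen] with z hz
    simp [Function.comp, ofComplex_apply_of_im_pos hz]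
  · have hcont : ContinuousAt W 0 := (hW 0 (Metric.mem_ball_self one_pos)).continuousAt
    have := hcont.tendsto.comp (qParam_tendsto_atImInfty hh)
    rw [hW0] at this
    exact this

end Fermat.Agent.S21
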