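import Fermat.Statements.S21

set_option autoImplicit false

open UpperHalfPlane CongruenceSubgroup Filter Topology ModularCurve ModularCurve.Period
open scoped MatrixGroups ModularForm Manifold

namespace Fermat.Agent.S21

/-- PER-1 -/
def Stmt_exists_primitive_of_periodic : Prop :=
  ∀ (h : ℝ) (_ : 0 < h) (f : ℍ → ℂ) (_ : MDiff f) (_ : ∀ z : ℍ, f (h +ᵥ z) = f z)
    (_ : IsZeroAtImInfty f),
    ∃ F : ℍ → ℂ, (∀ τ : ℍ, HasDerivAt (F ∘ ofComplex) (f τ) ↑τ) ∧ Tendsto F atImInfty (𝓝 0)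

/-- PER-2a -/
def Stmt_const_of_hasDerivAt_zero : Prop :=
  ∀ (F : ℍ → ℂ), (∀ τ : ℍ, HasDerivAt (F ∘ ofComplex) 0 ↑τ) → ∀ z w : ℍ, F z = F w

/-- PER-2b chain rule -/
def Stmt_hasDerivAt_comp_smul : Prop :=
  ∀ (F f : ℍ → ℂ), (∀ τ : ℍ, HasDerivAt (F ∘ ofComplex) (f τ) ↑τ) → ∀ (γ : SL(2, ℤ)) (τ : ℍ),
    HasDerivAt ((fun w : ℍ => F (γ • w)) ∘ ofComplex) ((f ∣[(2 : ℤ)] γ) τ) ↑τ

/-- PER-3 -/
def Stmt_exists_hasEquivariantPrimitive : Prop :=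
  ∀ (N : ℕ) [NeZero N] (f : CuspForm (Gamma0 N) 2), ∃ F : ℍ → ℂ, HasEquivariantPrimitive N f F

/-- PER-4a -/
def Stmt_periodMap_apply : Prop :=
  ∀ (N : ℕ) [NeZero N] (f : CuspForm (Gamma0 N) 2) (F : ℍ → ℂ), HasEquivariantPrimitive N f F →
    ∀ (γ : Gamma0 N) (z : ℍ), periodMap N f (Additive.ofMul γ) = F ((γ : SL(2, ℤ)) • z) - F z

/-- PER-4b -/
def Stmt_existsPeriodMapLinear : Prop :=
  ∀ (N : ℕ) [NeZero N], ExistsPeriodMapLinear N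

/-- PER-5 -/
def Stmt_periodMap_mem_parabolicHoms : Prop :=
  ∀ (N : ℕ) [NeZero N] (f : CuspForm (Gamma0 N) 2),
    periodMap N f ∈ parabolicHoms ℂ (Gamma0 N) ℂ

/-- PER-6 max principle -/
def Stmt_maxPrinciple : Prop :=
  ∀ (N : ℕ) [NeZero N] (A a : ℍ → ℂ),
    (∀ τ : ℍ, HasDerivAt (A ∘ ofComplex) (a τ) ↑τ) →
    (∀ γ ∈ Gamma0 N, ∀ z : ℍ, (A (γ • z)).re = (A z).re) →
    (∀ (δ : SL(2, ℤ)) (z : ℍ), A (δ • ((N : ℝ) +ᵥ z)) = A (δ • z)) →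
    (∀ δ : SL(2, ℤ), ∃ L : ℂ, Tendsto (fun w : ℍ => A (δ • w)) atImInfty (𝓝 L)) →
    ∀ τ, a τ = 0

/-- PER-7 injectivity -/
def Stmt_injectivity_core : Prop :=
  ∀ (N : ℕ) [NeZero N] (f g : CuspForm (Gamma0 N) 2),
    periodMap N f + charInvolution N ℂ ℂ (periodMap N g) = 0 → f = 0 ∧ g = 0

/-- PER-8 periods of weight two modular forms -/
def Stmt_exists_periodMF : Prop :=
  ∀ (N : ℕ) [NeZero N],
    ∃ per : ModularForm (Gamma0 N) 2 →ₗ[ℂ] (Additive (Gamma0 N) →+ ℂ),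
      (∀ (f : ModularForm (Gamma0 N) 2), ∃ F : ℍ → ℂ,
        (∀ τ : ℍ, HasDerivAt (F ∘ ofComplex) (f τ) ↑τ) ∧
        ∀ (γ : Gamma0 N) (z : ℍ), per f (Additive.ofMul γ) = F ((γ : SL(2, ℤ)) • z) - F z) ∧
      (∀ (f : ModularForm (Gamma0 N) 2) (g : CuspForm (Gamma0 N) 2), (∀ z, f z = g z) →
        per f = periodMap N g) ∧
      (∀ (f : ModularForm (Gamma0 N) 2), per f ∈ parabolicHoms ℂ (Gamma0 N) ℂ →
        ∃ g : CuspForm (Gamma0 N) 2, ∀ z, f z = g z)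

/-- PER-9 group theoretic bound -/
def Stmt_finrank_hom_bound : Prop :=
  ∀ (N : ℕ) [NeZero N],
    Module.Finite ℂ (Additive (Gamma0 N) →+ ℂ) ∧
    6 * Module.finrank ℂ (Additive (Gamma0 N) →+ ℂ)
        + 3 * Nat.card (MulAction.fixedBy (SL(2, ℤ) ⧸ Gamma0 N) ModularGroup.S)
        + 4 * Nat.card (MulAction.fixedBy (SL(2, ℤ) ⧸ Gamma0 N) (ModularGroup.S * ModularGroup.T))
      ≤ (Gamma0 N).index + 6

/-- CORE output -/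
def Stmt_exists_weight_two_families : Prop :=
  ∀ (N : ℕ) [NeZero N],
    ∃ (a b : ℕ) (u : Fin a → ModularForm (Gamma0 N) 2) (v : Fin b → CuspForm (Gamma0 N) 2),
      LinearIndependent ℂ u ∧ LinearIndependent ℂ v ∧
      (Gamma0 N).index + 6 ≤ 6 * (a + b)
        + 3 * Nat.card (MulAction.fixedBy (SL(2, ℤ) ⧸ Gamma0 N) ModularGroup.S)
        + 4 * Nat.card (MulAction.fixedBy (SL(2, ℤ) ⧸ Gamma0 N) (ModularGroup.S * ModularGroup.T))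

end Fermat.Agent.S21
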