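import Fermat.Agent.S21.Interface

set_option autoImplicit false

open UpperHalfPlane CongruenceSubgroup Filter Topology ModularCurve ModularCurve.Period
open scoped MatrixGroups ModularForm Manifold

namespace Fermat.Agent.S21

theorem assembly
    (h4b : Stmt_existsPeriodMapLinear)
    (h5 : Stmt_periodMap_mem_parabolicHoms)
    (h7 : Stmt_injectivity_core)
    (h8 : Stmt_exists_periodMF)
    (h9 : Stmt_finrank_hom_bound)
    (hC : Stmt_exists_weight_two_families)
    (N : ℕ) [NeZero N] :
    Function.Injective (ModularCurve.periodHomPair N)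
      ∧ LinearMap.range (ModularCurve.periodHomPair N)
          = ModularCurve.Period.parabolicHoms ℂ (CongruenceSubgroup.Gamma0 N) ℂ := by
  obtain ⟨pml, hpml, hdef⟩ := periodHomPair_def N (h4b N)
  set ι := charInvolution N ℂ ℂ with hι
  have hval : ∀ f g : CuspForm (Gamma0 N) 2,
      periodHomPair N (f, g) = pml (f + g) + ι (pml (f - g)) := by
    intro f g
    rw [hdef]
    simp only [LinearMap.coprod_apply, LinearMap.comp_apply, LinearMap.add_apply,
      LinearMap.sub_apply, LinearMap.id_apply, map_add, map_sub]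
    abel
  have hinj : Function.Injective (periodHomPair N) := by
    rw [← LinearMap.ker_eq_bot, LinearMap.ker_eq_bot']
    rintro ⟨f, g⟩ hfg
    rw [hval, hpml, hpml] at hfg
    obtain ⟨h1, h2⟩ := h7 N _ _ hfg
    have hf : f = 0 := by
      have : (2 : ℂ) • f = 0 := by
        have : (f + g) + (f - g) = 0 := by rw [h1, h2, add_zero]
        rw [two_smul]; rw [← this]; abel
      simpa using this
    have hg : g = 0 := by rw [hf, zero_add] at h1; exact h1
    rw [hf, hg]; rfl
  refine ⟨hinj, ?_⟩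
  apply le_antisymm
  · rintro _ ⟨⟨f, g⟩, rfl⟩
    rw [hval, hpml, hpml]
    exact Submodule.add_mem _ (h5 N _) (charInvolution_mem_parabolicHoms N ℂ ℂ (h5 N _))
  · -- surjectivity
    obtain ⟨per, hper1, hper2, hper3⟩ := h8 N
    obtain ⟨hfin, hbound⟩ := h9 N
    obtain ⟨a, b, u, v, hu, hv, hcount⟩ := hC N
    -- the big map
    let Ψ : (ModularForm (Gamma0 N) 2 × CuspForm (Gamma0 N) 2) →ₗ[ℂ] (Additive (Gamma0 N) →+ ℂ) :=
      LinearMap.coprod per (ι ∘ₗ pml)
    have hΨ : ∀ f g, Ψ (f, g) = per f + ι (pml g) := fun f g => by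
      simp [Ψ, LinearMap.coprod_apply]
    have hΨinj : Function.Injective Ψ := by
      rw [← LinearMap.ker_eq_bot, LinearMap.ker_eq_bot']
      rintro ⟨f, g⟩ hfg
      rw [hΨ] at hfg
      have hpar : per f ∈ parabolicHoms ℂ (Gamma0 N) ℂ := by
        have : per f = - ι (pml g) := eq_neg_of_add_eq_zero_left hfg
        rw [this, hpml]
        exact Submodule.neg_mem _ (charInvolution_mem_parabolicHoms N ℂ ℂ (h5 N _))
      obtain ⟨f₀, hf₀⟩ := hper3 f hpar
      rw [hper2 f f₀ hf₀, hpml] at hfg
      obtain ⟨h1, h2⟩ := h7 N _ _ hfg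
      have : f = 0 := by
        ext z; rw [hf₀ z, h1]; rfl
      rw [this, h2]; rfl
    have : Module.Finite ℂ (Additive (Gamma0 N) →+ ℂ) := hfin
    have : Module.Finite ℂ (ModularForm (Gamma0 N) 2 × CuspForm (Gamma0 N) 2) :=
      Module.Finite.of_injective Ψ hΨinj
    have : Module.Finite ℂ (ModularForm (Gamma0 N) 2) :=
      Module.Finite.of_injective (LinearMap.inl ℂ _ (CuspForm (Gamma0 N) 2)) LinearMap.inl_injective
    have : Module.Finite ℂ (CuspForm (Gamma0 N) 2) :=
      Module.Finite.of_injective (LinearMap.inr ℂ (ModularForm (Gamma0 N) 2) _) LinearMap.inr_injective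
    have ha : a ≤ Module.finrank ℂ (ModularForm (Gamma0 N) 2) := by
      simpa using hu.fintype_card_le_finrank
    have hb : b ≤ Module.finrank ℂ (CuspForm (Gamma0 N) 2) := by
      simpa using hv.fintype_card_le_finrank
    have hdim : Module.finrank ℂ (Additive (Gamma0 N) →+ ℂ)
        ≤ Module.finrank ℂ (ModularForm (Gamma0 N) 2 × CuspForm (Gamma0 N) 2) := by
      rw [Module.finrank_prod]
      omega
    have hΨsurj : Function.Surjective Ψ := by
      have hle := LinearMap.finrank_le_finrank_of_injective hΨinj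
      exact (LinearMap.injective_iff_surjective_of_finrank_eq_finrank (le_antisymm hle hdim)).mp hΨinj
    intro φ hφ
    obtain ⟨⟨f, g⟩, hfg⟩ := hΨsurj φ
    rw [hΨ] at hfg
    have hpar : per f ∈ parabolicHoms ℂ (Gamma0 N) ℂ := by
      have : per f = φ - ι (pml g) := eq_sub_of_add_eq hfg
      rw [this, hpml]
      exact Submodule.sub_mem _ hφ (charInvolution_mem_parabolicHoms N ℂ ℂ (h5 N _))
    obtain ⟨f₀, hf₀⟩ := hper3 f hpar
    refine ⟨(((1 / 2 : ℂ)) • (f₀ + g), ((1 / 2 : ℂ)) • (f₀ - g)), ?_⟩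
    rw [hval, ← hfg, hper2 f f₀ hf₀, ← hpml]
    congr 2
    · rw [← smul_add]
      have : (f₀ + g) + (f₀ - g) = (2 : ℂ) • f₀ := by rw [two_smul]; abel
      rw [this, smul_smul]; norm_num
    · rw [← smul_sub]
      have : (f₀ + g) - (f₀ - g) = (2 : ℂ) • g := by rw [two_smul]; abel
      rw [this, smul_smul]; norm_num

end Fermat.Agent.S21
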