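import Mathlib

set_option autoImplicit false

namespace Fermat.Agent.S21

open Module

section PermDim

variable {X : Type*}

/-- trace of the permutation operator `v ↦ v ∘ σ` is the number of fixed points. -/
theorem trace_funLeft_perm [Fintype X] [DecidableEq X] (σ : Equiv.Perm X) :
    LinearMap.trace ℂ (X → ℂ) (LinearMap.funLeft ℂ ℂ σ) =
      (Fintype.card {x // σ x = x} : ℂ) := by
  rw [LinearMap.trace_eq_matrix_trace ℂ (Pi.basisFun ℂ X), LinearMap.toMatrix_eq_toMatrix',
    Matrix.trace]
  simp only [Matrix.diag_apply, LinearMap.toMatrix'_apply, LinearMap.funLeft_apply]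
  rw [Fintype.card_subtype, Finset.card_filter]
  push_cast
  refine Finset.sum_congr rfl fun i _ => ?_
  by_cases h : σ i = i <;> simp [h]

/-- the `-1`-eigenspace of a permutation operator. -/
def antiInv (σ : Equiv.Perm X) : Submodule ℂ (X → ℂ) where
  carrier := {v | ∀ x, v (σ x) = - v x}
  zero_mem' := by intro x; simp
  add_mem' := by
    intro a b ha hb x
    simp only [Pi.add_apply, ha x, hb x]; ring
  smul_mem' := by
    intro c a ha x
    simp only [Pi.smul_apply, ha x, smul_eq_mul]; ring

/-- the kernel of `1 + σ + σ²`. -/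
def normKer (σ : Equiv.Perm X) : Submodule ℂ (X → ℂ) where
  carrier := {v | ∀ x, v x + v (σ x) + v (σ (σ x)) = 0}
  zero_mem' := by intro x; simp
  add_mem' := by
    intro a b ha hb x
    have h1 := ha x
    have h2 := hb x
    simp only [Pi.add_apply]
    linear_combination h1 + h2
  smul_mem' := by
    intro c a ha x
    have h1 := ha x
    simp only [Pi.smul_apply, smul_eq_mul]
    linear_combination c * h1

theorem mem_antiInv {σ : Equiv.Perm X} {v : X → ℂ} :
    v ∈ antiInv σ ↔ ∀ x, v (σ x) = - v x := Iff.rfl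

theorem mem_normKer {σ : Equiv.Perm X} {v : X → ℂ} :
    v ∈ normKer σ ↔ ∀ x, v x + v (σ x) + v (σ (σ x)) = 0 := Iff.rfl

theorem two_mul_finrank_antiInv [Fintype X] [DecidableEq X] (σ : Equiv.Perm X) (hσ : ∀ x, σ (σ x) = x) :
    2 * finrank ℂ (antiInv σ) + Fintype.card {x // σ x = x} = Fintype.card X := by
  set p : (X → ℂ) →ₗ[ℂ] (X → ℂ) :=
    (2 : ℂ)⁻¹ • (LinearMap.id - LinearMap.funLeft ℂ ℂ σ) with hp
  have hproj : LinearMap.IsProj (antiInv σ) p := by
    constructor
    · intro v x
      simp only [hp, LinearMap.smul_apply, LinearMap.sub_apply, LinearMap.id_apply,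
        LinearMap.funLeft_apply, Pi.smul_apply, Pi.sub_apply, smul_eq_mul, hσ x]
      ring
    · intro v hv
      funext x
      simp only [hp, LinearMap.smul_apply, LinearMap.sub_apply, LinearMap.id_apply,
        LinearMap.funLeft_apply, Pi.smul_apply, Pi.sub_apply, smul_eq_mul, hv x]
      ring
  have htr := hproj.trace
  rw [hp, map_smul, map_sub, trace_funLeft_perm, LinearMap.trace_id, finrank_fintype_fun_eq_card,
    smul_eq_mul] at htr
  have : ((2 * finrank ℂ (antiInv σ) + Fintype.card {x // σ x = x} : ℕ) : ℂ)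
      = (Fintype.card X : ℂ) := by
    push_cast
    rw [← htr]; ring
  exact_mod_cast this

theorem three_mul_finrank_normKer [Fintype X] [DecidableEq X] (σ : Equiv.Perm X) (hσ : ∀ x, σ (σ (σ x)) = x) :
    3 * finrank ℂ (normKer σ) + 2 * Fintype.card {x // σ x = x} = 2 * Fintype.card X := by
  set p : (X → ℂ) →ₗ[ℂ] (X → ℂ) :=
    LinearMap.id - (3 : ℂ)⁻¹ • (LinearMap.id + LinearMap.funLeft ℂ ℂ σ
      + LinearMap.funLeft ℂ ℂ (σ * σ)) with hp
  have hproj : LinearMap.IsProj (normKer σ) p := by
    constructor
    · intro v x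
      simp only [hp, LinearMap.smul_apply, LinearMap.sub_apply, LinearMap.add_apply,
        LinearMap.id_apply, LinearMap.funLeft_apply, Pi.smul_apply, Pi.sub_apply, Pi.add_apply,
        smul_eq_mul, Equiv.Perm.mul_apply, hσ]
      ring
    · intro v hv
      funext x
      have h1 := hv x
      simp only [hp, LinearMap.smul_apply, LinearMap.sub_apply, LinearMap.add_apply,
        LinearMap.id_apply, LinearMap.funLeft_apply, Pi.smul_apply, Pi.sub_apply, Pi.add_apply,
        smul_eq_mul, Equiv.Perm.mul_apply]
      linear_combination (-(3 : ℂ)⁻¹) * h1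
  have hfix : Fintype.card {x // (σ * σ) x = x} = Fintype.card {x // σ x = x} := by
    refine Fintype.card_congr (Equiv.subtypeEquivRight fun x => ?_)
    constructor
    · intro h
      have h2 : σ (σ x) = x := h
      have h3 := hσ x
      rw [h2] at h3
      exact h3
    · intro h
      show σ (σ x) = x
      rw [h, h]
  have htr := hproj.trace
  rw [hp, map_sub, map_smul, map_add, map_add, trace_funLeft_perm, trace_funLeft_perm, hfix,
    LinearMap.trace_id, finrank_fintype_fun_eq_card, smul_eq_mul] at htr
  have : ((3 * finrank ℂ (normKer σ) + 2 * Fintype.card {x // σ x = x} : ℕ) : ℂ)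
      = ((2 * Fintype.card X : ℕ) : ℂ) := by
    push_cast
    rw [← htr]; ring
  exact_mod_cast this

end PermDim

end Fermat.Agent.S21
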