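import Fermat.Agent.S21.Interface
import Fermat.Agent.S21.PermDim

set_option autoImplicit false

open UpperHalfPlane CongruenceSubgroup Filter Topology ModularCurve ModularCurve.Period
open scoped MatrixGroups ModularForm Manifold

namespace Fermat.Agent.S21

open Module

section Abstract

variable {G : Type*} [Group G] (Γ : Subgroup G)

/-- the `Γ`-component of `g` with respect to the chosen coset representatives. -/
noncomputable def cocyc (g : G) : Γ :=
  ⟨((g : G ⧸ Γ).out)⁻¹ * g, QuotientGroup.eq.1 (QuotientGroup.out_eq' (g : G ⧸ Γ))⟩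

theorem out_mul_cocyc (g : G) : ((g : G ⧸ Γ).out) * (cocyc Γ g : G) = g := by
  simp [cocyc]

theorem cocyc_mul (g : G) (γ : Γ) : cocyc Γ (g * γ) = cocyc Γ g * γ := by
  apply Subtype.ext
  have h : ((g * γ : G) : G ⧸ Γ) = (g : G ⧸ Γ) := QuotientGroup.mk_mul_of_mem g γ.2
  simp [cocyc, h, mul_assoc]

/-- the function `Q = P_φ + v ∘ mk` on `G`. -/
noncomputable def Qfun (p : (Additive Γ →+ ℂ) × (G ⧸ Γ → ℂ)) (g : G) : ℂ :=
  p.1 (Additive.ofMul (cocyc Γ g)) + p.2 (g : G ⧸ Γ)

theorem Qfun_mul (p : (Additive Γ →+ ℂ) × (G ⧸ Γ → ℂ)) (g : G) (γ : Γ) :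
    Qfun Γ p (g * γ) = Qfun Γ p g + p.1 (Additive.ofMul γ) := by
  have h : ((g * γ : G) : G ⧸ Γ) = (g : G ⧸ Γ) := QuotientGroup.mk_mul_of_mem g γ.2
  rw [Qfun, Qfun, cocyc_mul, h, ofMul_mul, map_add]
  ring

/-- `x ↦ Q (h g) - Q g` as a function on the coset space, linear in `(φ, v)`. -/
noncomputable def diffMap (h : G) :
    ((Additive Γ →+ ℂ) × (G ⧸ Γ → ℂ)) →ₗ[ℂ] (G ⧸ Γ → ℂ) where
  toFun p := fun x => Qfun Γ p (h * x.out) - Qfun Γ p x.out
  map_add' p q := by
    funext x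
    simp only [Qfun, Prod.fst_add, Prod.snd_add, AddMonoidHom.add_apply, Pi.add_apply]
    ring
  map_smul' c p := by
    funext x
    simp only [Qfun, Prod.smul_fst, Prod.smul_snd, AddMonoidHom.smul_apply, Pi.smul_apply,
      smul_eq_mul, RingHom.id_apply]
    ring

theorem diffMap_apply_mk (h g : G) (p : (Additive Γ →+ ℂ) × (G ⧸ Γ → ℂ)) :
    diffMap Γ h p (g : G ⧸ Γ) = Qfun Γ p (h * g) - Qfun Γ p g := by
  have h1 := Qfun_mul Γ p ((g : G ⧸ Γ).out) (cocyc Γ g)
  have h2 := Qfun_mul Γ p (h * (g : G ⧸ Γ).out) (cocyc Γ g)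
  rw [out_mul_cocyc] at h1
  rw [mul_assoc, out_mul_cocyc] at h2
  show Qfun Γ p (h * (g : G ⧸ Γ).out) - Qfun Γ p (g : G ⧸ Γ).out = _
  rw [h1, h2]; ring

variable {Γ}

theorem Qfun_central_mul {z : G} (hz : ∀ g, z * g = g * z) (hzΓ : z ∈ Γ) (hz2 : z * z = 1)
    (p : (Additive Γ →+ ℂ) × (G ⧸ Γ → ℂ)) (g : G) : Qfun Γ p (z * g) = Qfun Γ p g := by
  have h0 : p.1 (Additive.ofMul (⟨z, hzΓ⟩ : Γ)) = 0 := by
    have h1 : p.1 (Additive.ofMul ((⟨z, hzΓ⟩ : Γ) * ⟨z, hzΓ⟩)) = 0 := by
      have : ((⟨z, hzΓ⟩ : Γ) * ⟨z, hzΓ⟩) = 1 := Subtype.ext hz2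
      rw [this, ofMul_one, map_zero]
    rw [ofMul_mul, map_add] at h1
    have h2 : (2 : ℂ) * p.1 (Additive.ofMul (⟨z, hzΓ⟩ : Γ)) = 0 := by linear_combination h1
    simpa using h2
  have := Qfun_mul Γ p g ⟨z, hzΓ⟩
  rw [hz g]
  simpa [h0] using this

theorem diffMap_mem_antiInv {S z : G} (hz : ∀ g, z * g = g * z) (hzΓ : z ∈ Γ) (hz2 : z * z = 1)
    (hS : S * S = z) (p : (Additive Γ →+ ℂ) × (G ⧸ Γ → ℂ)) :
    diffMap Γ S p ∈ antiInv (MulAction.toPerm S : Equiv.Perm (G ⧸ Γ)) := by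
  intro x
  induction x using QuotientGroup.induction_on with
  | H g =>
    have e : (MulAction.toPerm S : Equiv.Perm (G ⧸ Γ)) (g : G ⧸ Γ) = ((S * g : G) : G ⧸ Γ) := rfl
    rw [e, diffMap_apply_mk, diffMap_apply_mk, ← mul_assoc, hS, Qfun_central_mul hz hzΓ hz2]
    ring

theorem diffMap_mem_normKer {U z : G} (hz : ∀ g, z * g = g * z) (hzΓ : z ∈ Γ) (hz2 : z * z = 1)
    (hU : U * U * U = z) (p : (Additive Γ →+ ℂ) × (G ⧸ Γ → ℂ)) :
    diffMap Γ U p ∈ normKer (MulAction.toPerm U : Equiv.Perm (G ⧸ Γ)) := by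
  intro x
  induction x using QuotientGroup.induction_on with
  | H g =>
    have e : ∀ g : G,
        (MulAction.toPerm U : Equiv.Perm (G ⧸ Γ)) (g : G ⧸ Γ) = ((U * g : G) : G ⧸ Γ) :=
      fun _ => rfl
    rw [e, e, diffMap_apply_mk, diffMap_apply_mk, diffMap_apply_mk]
    have h3 : U * (U * (U * g)) = z * g := by rw [← hU]; simp only [mul_assoc]
    rw [h3, Qfun_central_mul hz hzΓ hz2]
    ring

theorem Qfun_const_of_diffMap_eq_zero {S U : G} (hgen : Subgroup.closure {S, U} = ⊤)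
    (p : (Additive Γ →+ ℂ) × (G ⧸ Γ → ℂ)) (hS : diffMap Γ S p = 0) (hU : diffMap Γ U p = 0)
    (g : G) : Qfun Γ p g = Qfun Γ p 1 := by
  let H : Subgroup G :=
    { carrier := {h | ∀ g, Qfun Γ p (h * g) = Qfun Γ p g}
      one_mem' := by intro g; rw [one_mul]
      mul_mem' := by
        intro a b ha hb g
        rw [mul_assoc, ha, hb]
      inv_mem' := by
        intro a ha g
        have := ha (a⁻¹ * g)
        rw [mul_inv_cancel_left] at this
        exact this.symm }
  have hSH : S ∈ H := by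
    intro g
    have := congrFun hS (g : G ⧸ Γ)
    rw [diffMap_apply_mk] at this
    exact sub_eq_zero.1 this
  have hUH : U ∈ H := by
    intro g
    have := congrFun hU (g : G ⧸ Γ)
    rw [diffMap_apply_mk] at this
    exact sub_eq_zero.1 this
  have htop : H = ⊤ := by
    rw [eq_top_iff, ← hgen, Subgroup.closure_le]
    intro x hx
    rcases hx with rfl | hx
    · exact hSH
    · rw [Set.mem_singleton_iff] at hx
      subst hx
      exact hUH
  have hg : g ∈ H := htop ▸ Subgroup.mem_top g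
  have := hg 1
  rwa [mul_one] at this

theorem eq_of_diffMap_eq_zero {S U : G} (hgen : Subgroup.closure {S, U} = ⊤)
    (p : (Additive Γ →+ ℂ) × (G ⧸ Γ → ℂ)) (hS : diffMap Γ S p = 0) (hU : diffMap Γ U p = 0) :
    p = (Qfun Γ p 1) • ((0 : Additive Γ →+ ℂ), (fun _ => (1 : ℂ) : G ⧸ Γ → ℂ)) := by
  have hc := Qfun_const_of_diffMap_eq_zero hgen p hS hU
  have h1 : p.1 = 0 := by
    ext γ
    have := Qfun_mul Γ p 1 γ
    rw [hc] at this
    simpa using this.symm
  refine Prod.ext ?_ ?_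
  · simpa using h1
  · funext x
    induction x using QuotientGroup.induction_on with
    | H g =>
      have := hc g
      rw [Qfun, h1] at this
      simpa using this

variable (Γ)

theorem abstract_hom_bound [Γ.FiniteIndex] (S U z : G)
    (hz : ∀ g, z * g = g * z) (hzΓ : z ∈ Γ) (hz2 : z * z = 1) (hS : S * S = z)
    (hU : U * U * U = z) (hgen : Subgroup.closure {S, U} = ⊤) :
    Module.Finite ℂ (Additive Γ →+ ℂ) ∧
    6 * Module.finrank ℂ (Additive Γ →+ ℂ) + 3 * Nat.card (MulAction.fixedBy (G ⧸ Γ) S)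
      + 4 * Nat.card (MulAction.fixedBy (G ⧸ Γ) U) ≤ Γ.index + 6 := by
  classical
  let _ : Fintype (G ⧸ Γ) := Subgroup.fintypeQuotientOfFiniteIndex
  set σS : Equiv.Perm (G ⧸ Γ) := MulAction.toPerm S with hσS
  set σU : Equiv.Perm (G ⧸ Γ) := MulAction.toPerm U with hσU
  -- the map Θ
  let Θ : ((Additive Γ →+ ℂ) × (G ⧸ Γ → ℂ)) →ₗ[ℂ] (antiInv σS × normKer σU) :=
    LinearMap.prod
      ((diffMap Γ S).codRestrict (antiInv σS) (diffMap_mem_antiInv hz hzΓ hz2 hS))
      ((diffMap Γ U).codRestrict (normKer σU) (diffMap_mem_normKer hz hzΓ hz2 hU))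
  have hker : ∀ p, Θ p = 0 → diffMap Γ S p = 0 ∧ diffMap Γ U p = 0 := by
    intro p hp
    have h1 := congrArg (fun q => (q.1 : G ⧸ Γ → ℂ)) hp
    have h2 := congrArg (fun q => (q.2 : G ⧸ Γ → ℂ)) hp
    exact ⟨h1, h2⟩
  -- finiteness
  have hfin : Module.Finite ℂ (Additive Γ →+ ℂ) := by
    refine Module.Finite.of_injective (Θ ∘ₗ LinearMap.inl ℂ _ _) ?_
    rw [← LinearMap.ker_eq_bot, LinearMap.ker_eq_bot']
    intro φ hφ
    obtain ⟨h1, h2⟩ := hker _ hφ
    have := eq_of_diffMap_eq_zero hgen _ h1 h2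
    have h3 := congrArg Prod.fst this
    simpa using h3
  refine ⟨hfin, ?_⟩
  have hkerle : LinearMap.ker Θ ≤
      Submodule.span ℂ {((0 : Additive Γ →+ ℂ), (fun _ => (1 : ℂ) : G ⧸ Γ → ℂ))} := by
    intro p hp
    obtain ⟨h1, h2⟩ := hker p hp
    rw [eq_of_diffMap_eq_zero hgen p h1 h2]
    exact Submodule.smul_mem _ _ (Submodule.subset_span rfl)
  have hker1 : finrank ℂ (LinearMap.ker Θ) ≤ 1 := by
    refine (Submodule.finrank_mono hkerle).trans ?_
    exact (finrank_span_le_card _).trans (by simp)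
  have hrange : finrank ℂ (LinearMap.range Θ) ≤ finrank ℂ (antiInv σS) + finrank ℂ (normKer σU) := by
    rw [← Module.finrank_prod]
    exact Submodule.finrank_le _
  have hrn := LinearMap.finrank_range_add_finrank_ker Θ
  rw [Module.finrank_prod, finrank_fintype_fun_eq_card] at hrn
  have hSS : ∀ x, σS (σS x) = x := by
    intro x
    induction x using QuotientGroup.induction_on with
    | H g =>
      show ((S * (S * g) : G) : G ⧸ Γ) = (g : G ⧸ Γ)
      rw [← mul_assoc, hS, hz]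
      exact QuotientGroup.mk_mul_of_mem g hzΓ
  have hUU : ∀ x, σU (σU (σU x)) = x := by
    intro x
    induction x using QuotientGroup.induction_on with
    | H g =>
      show ((U * (U * (U * g)) : G) : G ⧸ Γ) = (g : G ⧸ Γ)
      have h3 : U * (U * (U * g)) = z * g := by rw [← hU]; simp only [mul_assoc]
      rw [h3, hz]
      exact QuotientGroup.mk_mul_of_mem g hzΓ
  have e2 := two_mul_finrank_antiInv σS hSS
  have e3 := three_mul_finrank_normKer σU hUU
  have c2 : Nat.card (MulAction.fixedBy (G ⧸ Γ) S) = Fintype.card {x // σS x = x} := by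
    rw [← Nat.card_eq_fintype_card]
    rfl
  have c3 : Nat.card (MulAction.fixedBy (G ⧸ Γ) U) = Fintype.card {x // σU x = x} := by
    rw [← Nat.card_eq_fintype_card]
    rfl
  have ci : Γ.index = Fintype.card (G ⧸ Γ) := by
    rw [← Nat.card_eq_fintype_card]
    rfl
  rw [c2, c3, ci]
  omega

end Abstract

theorem finrank_hom_bound : Stmt_finrank_hom_bound := by
  intro N _
  have hgen : Subgroup.closure {ModularGroup.S, ModularGroup.S * ModularGroup.T}
      = (⊤ : Subgroup SL(2, ℤ)) := by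
    rw [eq_top_iff, ← SpecialLinearGroup.SL2Z_generators, Subgroup.closure_le]
    intro x hx
    rcases hx with rfl | hx
    · exact Subgroup.subset_closure (by simp)
    · rw [Set.mem_singleton_iff] at hx
      subst hx
      have h1 : ModularGroup.S ∈ Subgroup.closure
          {ModularGroup.S, ModularGroup.S * ModularGroup.T} :=
        Subgroup.subset_closure (by simp)
      have h2 : ModularGroup.S * ModularGroup.T ∈ Subgroup.closure
          {ModularGroup.S, ModularGroup.S * ModularGroup.T} :=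
        Subgroup.subset_closure (by simp)
      have := Subgroup.mul_mem _ (Subgroup.inv_mem _ h1) h2
      simpa using this
  refine abstract_hom_bound (Gamma0 N) ModularGroup.S (ModularGroup.S * ModularGroup.T) (-1)
    ?_ ?_ ?_ ?_ ?_ hgen
  · intro g; simp
  · rw [Gamma0_mem]; simp
  · simp
  · apply Subtype.ext
    rw [Matrix.SpecialLinearGroup.coe_mul, ModularGroup.S_mul_S_eq]
    simp
  · apply Subtype.ext
    simp only [Matrix.SpecialLinearGroup.coe_mul, ModularGroup.coe_S, ModularGroup.coe_T]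
    ext i j
    fin_cases i <;> fin_cases j <;> simp [Matrix.mul_apply, Fin.sum_univ_two]

end Fermat.Agent.S21
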