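import Fermat.Agent.S21.Interface

set_option autoImplicit false

open UpperHalfPlane CongruenceSubgroup Filter Topology ModularCurve ModularCurve.Period
open scoped MatrixGroups ModularForm Manifold ComplexConjugate

namespace Fermat.Agent.S21

namespace Inj

/-- `J` intertwines `γ` and `jConjSL γ`. -/
theorem J_smul_smul (γ : SL(2, ℤ)) (z : ℍ) : J • (γ • z) = (jConjSL γ) • (J • z) := by
  ext
  rw [coe_J_smul, coe_specialLinearGroup_apply, coe_specialLinearGroup_apply, coe_J_smul]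
  simp only [jConjSL_coe, jConjMat, map_div₀, map_add, map_mul]
  simp
  ring

theorem J_J_smul (z : ℍ) : J • (J • z) = z := by
  rw [← mul_smul, ← sq, J_sq, one_smul]

theorem J_vadd (x : ℝ) (z : ℍ) : J • (x +ᵥ z) = (-x) +ᵥ (J • z) := by
  ext
  simp [coe_J_smul, coe_vadd]
  ring

theorem im_J_smul (z : ℍ) : (J • z).im = z.im := by
  have := congrArg Complex.im (coe_J_smul z)
  simpa using this

theorem tendsto_J_atImInfty : Tendsto (fun z : ℍ => J • z) atImInfty atImInfty := by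
  rw [atImInfty, tendsto_comap_iff]
  have : (im ∘ fun z : ℍ => J • z) = im := by
    funext z
    exact im_J_smul z
  rw [this]
  exact tendsto_comap

/-- The reflected conjugate of a holomorphic primitive is a holomorphic primitive. -/
theorem hasDerivAt_conj_J {G g : ℍ → ℂ}
    (hG : ∀ τ : ℍ, HasDerivAt (G ∘ ofComplex) (g τ) ↑τ) (τ : ℍ) :
    HasDerivAt ((fun z : ℍ => conj (G (J • z))) ∘ ofComplex) (-conj (g (J • τ))) ↑τ := by
  have h1 : HasDerivAt (G ∘ ofComplex) (g (J • τ)) (-conj (τ : ℂ)) := by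
    have := hG (J • τ)
    rwa [coe_J_smul] at this
  have h2 : HasDerivAt (conj ∘ (G ∘ ofComplex) ∘ conj) (conj (g (J • τ))) (-(τ : ℂ)) := by
    have := h1.conj_conj
    simpa using this
  have h3 : HasDerivAt (fun w : ℂ => (conj ∘ (G ∘ ofComplex) ∘ conj) (-w))
      (-conj (g (J • τ))) (τ : ℂ) := by
    have := HasDerivAt.comp (τ : ℂ) h2 (hasDerivAt_neg (τ : ℂ))
    rw [mul_neg, mul_one] at this
    exact this
  refine h3.congr_of_eventuallyEq ?_
  have hopen : {w : ℂ | 0 < w.im} ∈ 𝓝 (τ : ℂ) := isOpen_upperHalfPlaneSet.mem_nhds τ.im_pos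
  filter_upwards [hopen] with w hw
  simp only [Function.comp_apply, J_smul, ofComplex_apply_of_im_pos hw, map_neg]

/-- The conjugate `δ T^N δ⁻¹` lies in `Γ₀(N)` and has trace `2`. -/
theorem conj_T_zpow (N : ℕ) (δ : SL(2, ℤ)) :
    δ * ModularGroup.T ^ (N : ℤ) * δ⁻¹ ∈ Gamma0 N ∧
      ((δ * ModularGroup.T ^ (N : ℤ) * δ⁻¹ : SL(2, ℤ)) : Matrix (Fin 2) (Fin 2) ℤ).trace = 2 := by
  have hdet : (δ : Matrix (Fin 2) (Fin 2) ℤ) 0 0 * (δ : Matrix (Fin 2) (Fin 2) ℤ) 1 1 -
      (δ : Matrix (Fin 2) (Fin 2) ℤ) 0 1 * (δ : Matrix (Fin 2) (Fin 2) ℤ) 1 0 = 1 := by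
    have := δ.det_coe
    rwa [Matrix.det_fin_two] at this
  constructor
  · rw [Gamma0_mem]
    simp only [Matrix.SpecialLinearGroup.coe_mul, ModularGroup.coe_T_zpow,
      Matrix.SpecialLinearGroup.coe_inv, Matrix.adjugate_fin_two, Matrix.mul_apply,
      Fin.sum_univ_two]
    simp
    ring_nf
  · simp only [Matrix.SpecialLinearGroup.coe_mul, ModularGroup.coe_T_zpow,
      Matrix.SpecialLinearGroup.coe_inv, Matrix.adjugate_fin_two, Matrix.trace_fin_two,
      Matrix.mul_apply, Fin.sum_univ_two]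
    simp
    linear_combination 2 * hdet

/-- `N`-periodicity of `F ∘ δ` for an equivariant primitive `F` of a cusp form. -/
theorem periodic_comp_smul (h4 : Stmt_periodMap_apply) (h5 : Stmt_periodMap_mem_parabolicHoms)
    (N : ℕ) [NeZero N] (f : CuspForm (Gamma0 N) 2) (F : ℍ → ℂ)
    (hF : HasEquivariantPrimitive N f F) (δ : SL(2, ℤ)) (z : ℍ) :
    F (δ • ((N : ℝ) +ᵥ z)) = F (δ • z) := by
  obtain ⟨hmem, htr⟩ := conj_T_zpow N δ
  have hpar := (mem_parabolicHoms_iff.mp (h5 N f)) ⟨_, hmem⟩ (by rw [htr]; norm_num)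
  have happ := h4 N f F hF ⟨_, hmem⟩ (δ • z)
  rw [hpar] at happ
  have hsm : (δ * ModularGroup.T ^ (N : ℤ) * δ⁻¹) • (δ • z) = δ • ((N : ℝ) +ᵥ z) := by
    rw [← mul_smul, inv_mul_cancel_right, mul_smul, modular_T_zpow_smul]
    simp
  have happ' : (0 : ℂ) = F ((δ * ModularGroup.T ^ (N : ℤ) * δ⁻¹) • (δ • z)) - F (δ • z) := happ
  rw [hsm] at happ'
  exact (sub_eq_zero.mp happ'.symm)

end Inj

open Inj in
/-- PER-7: injectivity core. -/
theorem injectivity_core (h3 : Stmt_exists_hasEquivariantPrimitive)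
    (h4 : Stmt_periodMap_apply) (h5 : Stmt_periodMap_mem_parabolicHoms)
    (h6 : Stmt_maxPrinciple) : Stmt_injectivity_core := by
  intro N _ f g hfg
  obtain ⟨F, hF⟩ := h3 N f
  obtain ⟨G, hG⟩ := h3 N g
  set Gc : ℍ → ℂ := fun z => conj (G (J • z)) with hGc
  -- the key invariance relation
  have key : ∀ γ ∈ Gamma0 N, ∀ z : ℍ,
      F (γ • z) - F z + conj (Gc (γ • z) - Gc z) = 0 := by
    intro γ hγ z
    have h := congrArg (fun φ : Additive (Gamma0 N) →+ ℂ => φ (Additive.ofMul ⟨γ, hγ⟩)) hfg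
    simp only [AddMonoidHom.add_apply, charInvolution_apply, AddMonoidHom.zero_apply,
      toMul_ofMul] at h
    rw [h4 N f F hF ⟨γ, hγ⟩ z, h4 N g G hG (jConjGamma0 N ⟨γ, hγ⟩) (J • z)] at h
    simp only [jConjGamma0_coe] at h
    rw [← J_smul_smul] at h
    simp only [hGc, map_sub, Complex.conj_conj]
    exact h
  -- periodicity
  have perF := periodic_comp_smul h4 h5 N f F hF
  have perG := periodic_comp_smul h4 h5 N g G hG
  have perGc : ∀ (δ : SL(2, ℤ)) (z : ℍ), Gc (δ • ((N : ℝ) +ᵥ z)) = Gc (δ • z) := by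
    intro δ z
    simp only [hGc]
    rw [J_smul_smul, J_smul_smul, J_vadd]
    have := perG (jConjSL δ) ((-(N : ℝ)) +ᵥ (J • z))
    rw [vadd_vadd, add_neg_cancel, zero_vadd] at this
    rw [this]
  -- limits
  have limGc : ∀ δ : SL(2, ℤ), ∃ L : ℂ, Tendsto (fun w : ℍ => Gc (δ • w)) atImInfty (𝓝 L) := by
    intro δ
    obtain ⟨L, hL⟩ := hG.2.2.2 (jConjSL δ)
    refine ⟨conj L, ?_⟩
    have h1 : Tendsto (fun w : ℍ => G (jConjSL δ • (J • w))) atImInfty (𝓝 L) :=
      hL.comp tendsto_J_atImInfty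
    have h2 := (Complex.continuous_conj.tendsto L).comp h1
    refine h2.congr ?_
    intro w
    simp only [hGc, Function.comp_apply, J_smul_smul]
  have dGc := hasDerivAt_conj_J hG.1
  -- first application: `A = F + Gc`
  have r1 : ∀ τ : ℍ, f τ + -conj (g (J • τ)) = 0 := by
    refine h6 N (fun z => F z + Gc z) (fun τ => f τ + -conj (g (J • τ))) ?_ ?_ ?_ ?_
    · intro τ
      exact (hF.1 τ).add (dGc τ)
    · intro γ hγ z
      have h := congrArg Complex.re (key γ hγ z)
      simp only [Complex.add_re, Complex.sub_re, Complex.conj_re, Complex.zero_re] at h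
      simp only [Complex.add_re]
      linarith
    · intro δ z
      simp only [perF δ z, perGc δ z]
    · intro δ
      obtain ⟨L1, hL1⟩ := hF.2.2.2 δ
      obtain ⟨L2, hL2⟩ := limGc δ
      exact ⟨L1 + L2, hL1.add hL2⟩
  -- second application: `A = -i (F - Gc)`
  have r2 : ∀ τ : ℍ, (-Complex.I) * (f τ - -conj (g (J • τ))) = 0 := by
    refine h6 N (fun z => (-Complex.I) * (F z - Gc z))
      (fun τ => (-Complex.I) * (f τ - -conj (g (J • τ)))) ?_ ?_ ?_ ?_
    · intro τ
      exact ((hF.1 τ).sub (dGc τ)).const_mul (-Complex.I)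
    · intro γ hγ z
      have h := congrArg Complex.im (key γ hγ z)
      simp only [Complex.add_im, Complex.sub_im, Complex.conj_im, Complex.zero_im] at h
      simp only [Complex.mul_re, Complex.neg_re, Complex.I_re, Complex.neg_im, Complex.I_im,
        Complex.sub_re, Complex.sub_im]
      linarith
    · intro δ z
      simp only [perF δ z, perGc δ z]
    · intro δ
      obtain ⟨L1, hL1⟩ := hF.2.2.2 δ
      obtain ⟨L2, hL2⟩ := limGc δ
      exact ⟨(-Complex.I) * (L1 - L2), (hL1.sub hL2).const_mul _⟩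
  have r2' : ∀ τ : ℍ, f τ - -conj (g (J • τ)) = 0 := by
    intro τ
    have := r2 τ
    rcases mul_eq_zero.mp this with h | h
    · exact absurd h (neg_ne_zero.mpr Complex.I_ne_zero)
    · exact h
  have hf0 : ∀ τ : ℍ, f τ = 0 := by
    intro τ
    have a := r1 τ
    have b := r2' τ
    linear_combination (1 / 2 : ℂ) * a + (1 / 2 : ℂ) * b
  have hg0 : ∀ τ : ℍ, g τ = 0 := by
    intro τ
    have a := r1 (J • τ)
    have b := r2' (J • τ)
    rw [J_J_smul] at a b
    have hc : conj (g τ) = 0 := by linear_combination (1 / 2 : ℂ) * b - (1 / 2 : ℂ) * a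
    simpa using hc
  exact ⟨CuspForm.ext hf0, CuspForm.ext hg0⟩

end Fermat.Agent.S21
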