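import Fermat.Agent.S21.Interface

set_option autoImplicit false

open UpperHalfPlane CongruenceSubgroup Filter Topology ModularCurve ModularCurve.Period
open scoped MatrixGroups ModularForm Manifold

namespace Fermat.Agent.S21.MaxP16

open Function Complex

/-- the auxiliary function `z ↦ exp (A (δ z))`. -/
noncomputable def expA (A : ℍ → ℂ) (δ : SL(2, ℤ)) : ℍ → ℂ := fun z => Complex.exp (A (δ • z))

lemma mdiff_of_hasDerivAt {A a : ℍ → ℂ}
    (hA : ∀ τ : ℍ, HasDerivAt (A ∘ ofComplex) (a τ) ↑τ) : MDiff A :=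
  fun τ => UpperHalfPlane.mdifferentiableAt_iff.mpr (hA τ).differentiableAt

lemma mdiff_comp_smul {A : ℍ → ℂ} (hA : MDiff A) (δ : SL(2, ℤ)) :
    MDiff (fun z : ℍ => A (δ • z)) := by
  have h : MDiff (fun τ : ℍ ↦ (δ : GL (Fin 2) ℝ) • τ) :=
    UpperHalfPlane.mdifferentiable_smul (g := (δ : GL (Fin 2) ℝ)) (by simp)
  exact hA.comp h

lemma mdiff_expA {A : ℍ → ℂ} (hA : MDiff A) (δ : SL(2, ℤ)) : MDiff (expA A δ) := by
  have h := mdiff_comp_smul hA δ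
  rw [UpperHalfPlane.mdifferentiable_iff] at h ⊢
  exact h.cexp

lemma periodic_expA {N : ℕ} {A : ℍ → ℂ} (δ : SL(2, ℤ))
    (hper : ∀ (z : ℍ), A (δ • ((N : ℝ) +ᵥ z)) = A (δ • z)) :
    Periodic (expA A δ ∘ ofComplex) (N : ℝ) := by
  intro w
  by_cases hw : 0 < im w
  · have h2 : 0 < im (w + (N : ℝ)) := by simpa using hw
    simp only [comp_apply, ofComplex_apply_of_im_pos h2, ofComplex_apply_of_im_pos hw, expA]
    rw [← hper ⟨w, hw⟩]
    congr 3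
    ext
    simp [add_comm]
  · have hw' : im w ≤ 0 := not_lt.mp hw
    have h2 : im (w + (N : ℝ)) ≤ 0 := by simpa using hw'
    rw [comp_apply, comp_apply, ofComplex_apply_of_im_nonpos h2, ofComplex_apply_of_im_nonpos hw']

lemma bdd_expA {A : ℍ → ℂ} (δ : SL(2, ℤ))
    (hlim : ∃ L : ℂ, Tendsto (fun w : ℍ => A (δ • w)) atImInfty (𝓝 L)) :
    IsBoundedAtImInfty (expA A δ) := by
  obtain ⟨L, hL⟩ := hlim
  have h : Tendsto (expA A δ) atImInfty (𝓝 (Complex.exp L)) :=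
    (Complex.continuous_exp.tendsto L).comp hL
  exact h.isBigO_one ℝ


section main

variable {N : ℕ} [NeZero N] {A a : ℍ → ℂ}

lemma N_pos : (0 : ℝ) < (N : ℝ) := by exact_mod_cast Nat.pos_of_ne_zero (NeZero.ne N)

/-- the radius of the compact disc. -/
noncomputable def rad (N : ℕ) : ℝ := Real.exp (-Real.pi / N)

omit [NeZero N] in
lemma rad_nonneg : 0 ≤ rad N := (Real.exp_pos _).le

lemma rad_lt_one : rad N < 1 := by
  rw [rad, Real.exp_lt_one_iff]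
  exact div_neg_of_neg_of_pos (neg_lt_zero.mpr Real.pi_pos) N_pos

lemma norm_qParam_le_rad {z : ℍ} (hz : 1 / 2 ≤ z.im) :
    ‖Periodic.qParam (N : ℝ) (z : ℂ)‖ ≤ rad N := by
  rw [Periodic.norm_qParam, rad, Real.exp_le_exp]
  have hN : (0 : ℝ) < (N : ℝ) := N_pos
  rw [div_le_div_iff_of_pos_right hN]
  have : z.im = (z : ℂ).im := rfl
  rw [← this]
  nlinarith [Real.pi_pos]

/-- hypotheses bundle -/
structure Hyp (N : ℕ) (A a : ℍ → ℂ) : Prop where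
  hA : ∀ τ : ℍ, HasDerivAt (A ∘ ofComplex) (a τ) ↑τ
  hre : ∀ γ ∈ Gamma0 N, ∀ z : ℍ, (A (γ • z)).re = (A z).re
  hper : ∀ (δ : SL(2, ℤ)) (z : ℍ), A (δ • ((N : ℝ) +ᵥ z)) = A (δ • z)
  hlim : ∀ δ : SL(2, ℤ), ∃ L : ℂ, Tendsto (fun w : ℍ => A (δ • w)) atImInfty (𝓝 L)

/-- the cusp function of `expA A δ`. -/
noncomputable def phi (N : ℕ) (A : ℍ → ℂ) (δ : SL(2, ℤ)) : ℂ → ℂ :=
  cuspFunction (N : ℝ) (expA A δ)

lemma phi_qParam (H : Hyp N A a) (δ : SL(2, ℤ)) (z : ℍ) :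
    phi N A δ (Periodic.qParam (N : ℝ) (z : ℂ)) = expA A δ z :=
  eq_cuspFunction z N_pos.ne' (periodic_expA δ (H.hper δ))

lemma diffOn_phi (H : Hyp N A a) (δ : SL(2, ℤ)) :
    DifferentiableOn ℂ (phi N A δ) (Metric.ball 0 1) :=
  differentiableOn_cuspFunction_ball N_pos (periodic_expA δ (H.hper δ))
    (mdiff_expA (mdiff_of_hasDerivAt H.hA) δ) (bdd_expA δ (H.hlim δ))

omit [NeZero N] in
lemma norm_expA_mul (H : Hyp N A a) {γ : SL(2, ℤ)} (hγ : γ ∈ Gamma0 N) (δ : SL(2, ℤ)) (z : ℍ) :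
    ‖expA A (γ * δ) z‖ = ‖expA A δ z‖ := by
  simp only [expA, Complex.norm_exp, mul_smul]
  rw [H.hre γ hγ]

/-- every nonzero point of the unit disc is a `q`-parameter. -/
lemma exists_qParam_eq {t : ℂ} (ht : ‖t‖ < 1) (ht0 : t ≠ 0) :
    ∃ z : ℍ, Periodic.qParam (N : ℝ) (z : ℂ) = t :=
  ⟨⟨_, Periodic.im_invQParam_pos_of_norm_lt_one N_pos ht ht0⟩,
    Periodic.qParam_right_inv N_pos.ne' ht0⟩

lemma norm_phi_mul (H : Hyp N A a) {γ : SL(2, ℤ)} (hγ : γ ∈ Gamma0 N) (δ : SL(2, ℤ))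
    {t : ℂ} (ht : ‖t‖ < 1) : ‖phi N A (γ * δ) t‖ = ‖phi N A δ t‖ := by
  have key : ∀ t : ℂ, ‖t‖ < 1 → t ≠ 0 → ‖phi N A (γ * δ) t‖ = ‖phi N A δ t‖ := by
    intro t ht ht0
    obtain ⟨z, rfl⟩ := exists_qParam_eq (N := N) ht ht0
    rw [phi_qParam H, phi_qParam H, norm_expA_mul H hγ]
  rcases eq_or_ne t 0 with rfl | ht0
  · have hball : Metric.ball (0 : ℂ) 1 ∈ 𝓝 (0 : ℂ) := Metric.ball_mem_nhds _ one_pos
    have c1 : Tendsto (fun t => ‖phi N A (γ * δ) t‖) (𝓝[≠] 0) (𝓝 ‖phi N A (γ * δ) 0‖) :=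
      (((diffOn_phi H (γ * δ)).continuousOn.continuousAt hball).norm.tendsto).mono_left
        nhdsWithin_le_nhds
    have c2 : Tendsto (fun t => ‖phi N A δ t‖) (𝓝[≠] 0) (𝓝 ‖phi N A δ 0‖) :=
      (((diffOn_phi H δ).continuousOn.continuousAt hball).norm.tendsto).mono_left
        nhdsWithin_le_nhds
    refine tendsto_nhds_unique (c1.congr' ?_) c2
    have h1 : ∀ᶠ t in 𝓝[≠] (0 : ℂ), t ∈ Metric.ball (0 : ℂ) 1 :=
      mem_nhdsWithin_of_mem_nhds hball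
    filter_upwards [h1, self_mem_nhdsWithin] with t ht ht0
    exact key t (by simpa using ht) ht0
  · exact key t ht ht0

/-- a point of the compact disc where `‖phi δ‖` is maximal. -/
lemma exists_max (H : Hyp N A a) (δ : SL(2, ℤ)) :
    ∃ t ∈ Metric.closedBall (0 : ℂ) (rad N),
      ∀ t' ∈ Metric.closedBall (0 : ℂ) (rad N), ‖phi N A δ t'‖ ≤ ‖phi N A δ t‖ := by
  obtain ⟨x, hx, hmax⟩ := (isCompact_closedBall (0 : ℂ) (rad N)).exists_isMaxOn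
    (Metric.nonempty_closedBall.mpr rad_nonneg)
    ((diffOn_phi H δ).continuousOn.mono (Metric.closedBall_subset_ball rad_lt_one)).norm
  exact ⟨x, hx, fun t' ht' => hmax ht'⟩

/-- the maximum of `‖phi δ‖` on the compact disc. -/
noncomputable def maxVal (H : Hyp N A a) (δ : SL(2, ℤ)) : ℝ :=
  ‖phi N A δ (exists_max H δ).choose‖

lemma le_maxVal (H : Hyp N A a) (δ : SL(2, ℤ)) {t : ℂ}
    (ht : t ∈ Metric.closedBall (0 : ℂ) (rad N)) : ‖phi N A δ t‖ ≤ maxVal H δ :=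
  (exists_max H δ).choose_spec.2 t ht

lemma maxVal_attained (H : Hyp N A a) (δ : SL(2, ℤ)) :
    ∃ t ∈ Metric.closedBall (0 : ℂ) (rad N), ‖phi N A δ t‖ = maxVal H δ :=
  ⟨_, (exists_max H δ).choose_spec.1, rfl⟩

lemma maxVal_mul_le (H : Hyp N A a) {γ : SL(2, ℤ)} (hγ : γ ∈ Gamma0 N) (δ : SL(2, ℤ)) :
    maxVal H (γ * δ) ≤ maxVal H δ := by
  obtain ⟨t, ht, hEq⟩ := maxVal_attained H (γ * δ)
  rw [← hEq, norm_phi_mul H hγ δ
    (by simpa using Metric.closedBall_subset_ball (rad_lt_one (N := N)) ht)]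
  exact le_maxVal H δ ht

/-- there is a `δ₀` with maximal `maxVal`. -/
lemma exists_best (H : Hyp N A a) : ∃ δ₀ : SL(2, ℤ), ∀ δ, maxVal H δ ≤ maxVal H δ₀ := by
  have : Finite (SL(2, ℤ) ⧸ Gamma0 N) := Subgroup.finite_quotient_of_finiteIndex
  obtain ⟨q₀, hq₀⟩ := Finite.exists_max
    (fun q : SL(2, ℤ) ⧸ Gamma0 N => maxVal H (q.out)⁻¹)
  refine ⟨(q₀.out)⁻¹, fun δ => le_trans ?_ (hq₀ (QuotientGroup.mk δ⁻¹))⟩
  set g := (QuotientGroup.mk δ⁻¹ : SL(2, ℤ) ⧸ Gamma0 N).out with hg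
  have h1 : (QuotientGroup.mk g : SL(2, ℤ) ⧸ Gamma0 N) = QuotientGroup.mk δ⁻¹ :=
    QuotientGroup.out_eq' _
  have h2 : (δ⁻¹)⁻¹ * g ∈ Gamma0 N := QuotientGroup.eq.mp h1.symm
  have h3 : δ = ((δ⁻¹)⁻¹ * g) * g⁻¹ := by group
  calc maxVal H δ = maxVal H (((δ⁻¹)⁻¹ * g) * g⁻¹) := by rw [← h3]
    _ ≤ maxVal H g⁻¹ := maxVal_mul_le H h2 _

lemma expA_const (H : Hyp N A a) : ∃ (δ₀ : SL(2, ℤ)) (c : ℂ), ∀ z : ℍ, expA A δ₀ z = c := by
  obtain ⟨δ₀, hδ₀⟩ := exists_best H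
  obtain ⟨t₀, ht₀, hEq⟩ := maxVal_attained H δ₀
  have hconst := Complex.eq_const_of_exists_le (diffOn_phi H δ₀) (rad_nonneg (N := N))
    (rad_lt_one (N := N)) (fun t ht => ⟨t₀, ht₀, by
      rw [hEq]
      have ht1 : ‖t‖ < 1 := by simpa using ht
      rcases eq_or_ne t 0 with rfl | ht0
      · exact le_maxVal H δ₀ (by simpa using rad_nonneg (N := N))
      · obtain ⟨z, rfl⟩ := exists_qParam_eq (N := N) ht1 ht0
        obtain ⟨g, hg⟩ := ModularGroup.exists_one_half_le_im_smul z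
        have e1 : expA A δ₀ z = expA A (δ₀ * g⁻¹) (g • z) := by
          simp only [expA, mul_smul, inv_smul_smul]
        rw [phi_qParam H, e1, ← phi_qParam H]
        refine (le_maxVal H _ ?_).trans (hδ₀ _)
        simpa using norm_qParam_le_rad (N := N) hg⟩)
  refine ⟨δ₀, phi N A δ₀ 0, fun z => ?_⟩
  rw [← phi_qParam H]
  exact hconst (by simpa using Periodic.norm_qParam_lt_one (N_pos (N := N)) z.im_pos)

theorem deriv_eq_zero (H : Hyp N A a) (τ : ℍ) : a τ = 0 := by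
  obtain ⟨δ₀, c, hc⟩ := expA_const H
  have hc' : ∀ w : ℍ, Complex.exp (A w) = c := by
    intro w
    have := hc (δ₀⁻¹ • w)
    simpa only [expA, smul_inv_smul] using this
  have h1 : HasDerivAt (fun z : ℂ => Complex.exp ((A ∘ ofComplex) z))
      (Complex.exp ((A ∘ ofComplex) τ) * a τ) τ := (H.hA τ).cexp
  have h2 : (fun z : ℂ => Complex.exp ((A ∘ ofComplex) z)) = fun _ => c := by
    funext z
    exact hc' _
  rw [h2] at h1
  have h3 := h1.unique (hasDerivAt_const (τ : ℂ) c)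
  exact (mul_eq_zero.mp h3).resolve_left (Complex.exp_ne_zero _)

end main

theorem maxPrinciple : Stmt_maxPrinciple := by
  intro N _ A a hA hre hper hlim τ
  exact deriv_eq_zero (N := N) ⟨hA, hre, hper, hlim⟩ τ

end Fermat.Agent.S21.MaxP16
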