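import Fermat.Agent.S21.Interface

set_option autoImplicit false

open UpperHalfPlane CongruenceSubgroup Filter Topology ModularCurve ModularCurve.Period
open scoped MatrixGroups ModularForm Manifold

namespace Fermat.Agent.S21

/-- An element of `SL(2,ℤ)` of trace `2` fixing a primitive vector is conjugate to a power
of `T`. -/
theorem exists_conj_T_zpow_of_fixed (γ : SL(2, ℤ)) (htr : γ 0 0 + γ 1 1 = 2) (p r : ℤ)
    (hpr : IsCoprime p r) (h1 : γ 0 0 * p + γ 0 1 * r = p) (h2 : γ 1 0 * p + γ 1 1 * r = r) :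
    ∃ (δ : SL(2, ℤ)) (m : ℤ), γ = δ * ModularGroup.T ^ m * δ⁻¹ := by
  obtain ⟨u, v, huv⟩ := hpr
  have hdet : γ 0 0 * γ 1 1 - γ 0 1 * γ 1 0 = 1 := by
    have := γ.det_coe
    rw [Matrix.det_fin_two] at this
    exact this
  let δ : SL(2, ℤ) := ⟨!![p, -v; r, u], by rw [Matrix.det_fin_two_of]; linarith⟩
  refine ⟨δ, u * (-(γ 0 0) * v + γ 0 1 * u) + v * (-(γ 1 0) * v + γ 1 1 * u), ?_⟩
  rw [eq_mul_inv_iff_mul_eq]
  apply Subtype.ext
  rw [Matrix.SpecialLinearGroup.coe_mul, Matrix.SpecialLinearGroup.coe_mul,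
    ModularGroup.coe_T_zpow, Matrix.eta_fin_two (γ : Matrix (Fin 2) (Fin 2) ℤ)]
  generalize (γ : Matrix (Fin 2) (Fin 2) ℤ) 0 0 = a at *
  generalize (γ : Matrix (Fin 2) (Fin 2) ℤ) 0 1 = b at *
  generalize (γ : Matrix (Fin 2) (Fin 2) ℤ) 1 0 = c at *
  generalize (γ : Matrix (Fin 2) (Fin 2) ℤ) 1 1 = d at *
  show !![a, b; c, d] * !![p, -v; r, u] = !![p, -v; r, u] * _
  rw [Matrix.mul_fin_two, Matrix.mul_fin_two]
  have hd : d = 2 - a := by linarith
  subst hd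
  simp only [Matrix.of_apply, Matrix.cons_val_zero, Matrix.cons_val_one, Matrix.cons_val', 
    Matrix.cons_val_fin_one]
  have e1 : a * -v + b * u = p * (u * (-a * v + b * u) + v * (-c * v + (2 - a) * u)) + -v * 1 := by
    linear_combination (-v - (-a*v+b*u)) * huv + v*u*h1 + v^2*h2
  have e2 : c * -v + (2 - a) * u
      = r * (u * (-a * v + b * u) + v * (-c * v + (2 - a) * u)) + u * 1 := by
    linear_combination (u - (-c * v + (2 - a) * u)) * huv - u^2*h1 - u*v*h2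
  rw [e1, e2, h1, h2]
  simp

/-- An element of `SL(2,ℤ)` of trace `2` is conjugate to a power of `T`. -/
theorem exists_conj_T_zpow_of_trace_eq_two (γ : SL(2, ℤ)) (htr : γ 0 0 + γ 1 1 = 2) :
    ∃ (δ : SL(2, ℤ)) (m : ℤ), γ = δ * ModularGroup.T ^ m * δ⁻¹ := by
  have hdet : γ 0 0 * γ 1 1 - γ 0 1 * γ 1 0 = 1 := by
    have := γ.det_coe
    rw [Matrix.det_fin_two] at this
    exact this
  by_cases h0 : γ 0 1 = 0 ∧ γ 0 0 - 1 = 0
  · -- the vector `(0, 1)` is fixed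
    obtain ⟨hb, ha⟩ := h0
    refine exists_conj_T_zpow_of_fixed γ htr 0 1 (isCoprime_zero_left.mpr isUnit_one) ?_ ?_
    · rw [hb]; ring
    · have : γ 1 1 = 1 := by linarith
      rw [this]; ring
  · -- the vector `(b, 1 - a) / gcd` is fixed
    have hg : 0 < Int.gcd (γ 0 1) (γ 0 0 - 1) := by
      rw [Nat.pos_iff_ne_zero]
      intro h
      exact h0 (Int.gcd_eq_zero_iff.mp h)
    obtain ⟨g, p, r, hg0, hgcd, hp, hr⟩ := Int.exists_gcd_one' hg
    have hg' : (g : ℤ) ≠ 0 := by exact_mod_cast hg0.ne'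
    have hcop : IsCoprime p (-r) := by
      rw [IsCoprime.neg_right_iff, Int.isCoprime_iff_gcd_eq_one]
      exact hgcd
    have ha : γ 0 0 = r * g + 1 := by linarith
    have hd : γ 1 1 = 1 - r * g := by linarith
    refine exists_conj_T_zpow_of_fixed γ htr p (-r) hcop ?_ ?_
    · rw [ha, hp]; ring
    · apply mul_left_cancel₀ hg'
      rw [ha, hd, hp] at hdet
      rw [hd]
      linear_combination (-1 : ℤ) * hdet

/-- **Key algebra lemma**: a parabolic (or `±1`) element of `SL(2,ℤ)` is, up to sign, conjugate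
to a power of `T`. -/
theorem exists_conj_T_zpow_of_trace_sq (γ : SL(2, ℤ))
    (htr : (γ : Matrix (Fin 2) (Fin 2) ℤ).trace ^ 2 = 4) :
    ∃ (δ : SL(2, ℤ)) (m : ℤ),
      γ = δ * ModularGroup.T ^ m * δ⁻¹ ∨ γ = -(δ * ModularGroup.T ^ m * δ⁻¹) := by
  rw [Matrix.trace_fin_two] at htr
  have h : γ 0 0 + γ 1 1 = 2 ∨ γ 0 0 + γ 1 1 = -2 := by
    have : (γ 0 0 + γ 1 1 - 2) * (γ 0 0 + γ 1 1 + 2) = 0 := by linear_combination htr
    rcases mul_eq_zero.mp this with h | h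
    · left; linarith
    · right; linarith
  rcases h with h | h
  · obtain ⟨δ, m, hδ⟩ := exists_conj_T_zpow_of_trace_eq_two γ h
    exact ⟨δ, m, Or.inl hδ⟩
  · obtain ⟨δ, m, hδ⟩ := exists_conj_T_zpow_of_trace_eq_two (-γ) (by
      simp only [Matrix.SpecialLinearGroup.coe_neg, Matrix.neg_apply]; linarith)
    exact ⟨δ, m, Or.inr (by rw [← hδ, neg_neg])⟩

/-- Action on `ℍ` of a parabolic element written as `± δ T^m δ⁻¹`. -/
theorem smul_smul_eq_of_conj_T_zpow {γ δ : SL(2, ℤ)} {m : ℤ}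
    (h : γ = δ * ModularGroup.T ^ m * δ⁻¹ ∨ γ = -(δ * ModularGroup.T ^ m * δ⁻¹)) (w : ℍ) :
    γ • (δ • w) = δ • ((m : ℝ) +ᵥ w) := by
  have key : (δ * ModularGroup.T ^ m * δ⁻¹) • (δ • w) = δ • ((m : ℝ) +ᵥ w) := by
    rw [← mul_smul, inv_mul_cancel_right, mul_smul, UpperHalfPlane.modular_T_zpow_smul]
  rcases h with h | h
  · rw [h, key]
  · rw [h, ModularGroup.SL_neg_smul, key]

theorem tendsto_vadd_atImInfty (x : ℝ) :
    Tendsto (fun w : ℍ => x +ᵥ w) atImInfty atImInfty := by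
  rw [atImInfty, tendsto_comap_iff]
  have : (UpperHalfPlane.im ∘ fun w : ℍ => x +ᵥ w) = UpperHalfPlane.im := by
    ext w; simp [UpperHalfPlane.vadd_im]
  rw [this]
  exact tendsto_comap

/-- PER-5 -/
theorem periodMap_mem_parabolicHoms (h3 : Stmt_exists_hasEquivariantPrimitive)
    (h4 : Stmt_periodMap_apply) : Stmt_periodMap_mem_parabolicHoms := by
  intro N _ f
  rw [mem_parabolicHoms_iff]
  intro γ hγ
  obtain ⟨F, hF⟩ := h3 N f
  obtain ⟨δ, m, hδ⟩ := exists_conj_T_zpow_of_trace_sq (γ : SL(2, ℤ)) hγ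
  obtain ⟨L, hL⟩ := hF.2.2.2 δ
  have hL' : Tendsto (fun w : ℍ => F (δ • ((m : ℝ) +ᵥ w))) atImInfty (𝓝 L) :=
    hL.comp (tendsto_vadd_atImInfty (m : ℝ))
  have hconst : ∀ w : ℍ, periodMap N f (Additive.ofMul γ)
      = F (δ • ((m : ℝ) +ᵥ w)) - F (δ • w) := by
    intro w
    rw [h4 N f F hF γ (δ • w), smul_smul_eq_of_conj_T_zpow hδ w]
  have hlim : Tendsto (fun _ : ℍ => periodMap N f (Additive.ofMul γ)) atImInfty (𝓝 (L - L)) := by
    have := hL'.sub hL
    refine this.congr (fun w => (hconst w).symm)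
  rw [sub_self] at hlim
  exact tendsto_nhds_unique tendsto_const_nhds hlim

end Fermat.Agent.S21
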