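import Fermat.Agent.S21.Interface

set_option autoImplicit false

open UpperHalfPlane CongruenceSubgroup Filter Topology ModularCurve ModularCurve.Period
open scoped MatrixGroups ModularForm Manifold

namespace Fermat.Agent.S21

/-- A function on `ℍ` invariant under `z ↦ h + z` gives an `h`-periodic function on `ℂ`. -/
theorem periodic_comp_ofComplex_of_vadd {f : ℍ → ℂ} {h : ℝ} (hf : ∀ z : ℍ, f (h +ᵥ z) = f z) :
    Function.Periodic (f ∘ ofComplex) (h : ℂ) := by
  intro w
  by_cases! hw : 0 < Complex.im w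
  · have : 0 < Complex.im (w + h) := by simp [hw]
    simp only [Function.comp_apply, ofComplex_apply_of_im_pos this, ofComplex_apply_of_im_pos hw]
    rw [← hf ⟨w, hw⟩]
    congr 1
    ext
    simp [add_comm]
  · have : Complex.im (w + h) ≤ 0 := by simpa using hw
    simp [ofComplex_apply_of_im_nonpos this, ofComplex_apply_of_im_nonpos hw]

theorem mdiff_of_hasDerivAt {A a : ℍ → ℂ} (hA : ∀ τ : ℍ, HasDerivAt (A ∘ ofComplex) (a τ) ↑τ) :
    MDiff A := fun τ => mdifferentiableAt_iff.2 (hA τ).differentiableAt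

theorem mdiff_comp_SL_smul {A : ℍ → ℂ} (hA : MDiff A) (δ : SL(2, ℤ)) :
    MDiff (fun w : ℍ => A (δ • w)) := by
  have h1 : MDiff (fun τ : ℍ ↦ (δ : GL (Fin 2) ℝ) • τ) := mdifferentiable_smul (by simp)
  exact hA.comp h1

theorem mdiff_cexp {f : ℍ → ℂ} (hf : MDiff f) : MDiff (fun w : ℍ => Complex.exp (f w)) := by
  rw [mdifferentiable_iff] at hf ⊢
  exact hf.cexp

theorem norm_qParam_le_of_one_half_le_im' {h : ℝ} (hh : 0 < h) {ξ : ℂ} (hξ : 1 / 2 ≤ ξ.im) :
    ‖Function.Periodic.qParam h ξ‖ ≤ Real.exp (-Real.pi / h) := by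
  rw [Function.Periodic.norm_qParam, Real.exp_le_exp]
  apply div_le_div_of_nonneg_right _ hh.le
  nlinarith [Real.pi_pos]

theorem maxPrinciple : Stmt_maxPrinciple := by
  intro N _ A a hA hinv hper hlim
  have hN : (0 : ℝ) < N := by exact_mod_cast Nat.pos_of_ne_zero (NeZero.ne N)
  have hAm : MDiff A := mdiff_of_hasDerivAt hA
  -- the functions `E δ`
  let E : SL(2, ℤ) → ℍ → ℂ := fun δ w => Complex.exp (A (δ • w))
  have hEm : ∀ δ, MDiff (E δ) := fun δ => mdiff_cexp (mdiff_comp_SL_smul hAm δ)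
  have hEper : ∀ δ, Function.Periodic (E δ ∘ ofComplex) ((N : ℝ) : ℂ) := fun δ =>
    periodic_comp_ofComplex_of_vadd (fun z => by simp only [E, hper])
  have hEbdd : ∀ δ, IsBoundedAtImInfty (E δ) := by
    intro δ
    obtain ⟨L, hL⟩ := hlim δ
    have : Tendsto (E δ) atImInfty (𝓝 (Complex.exp L)) :=
      (Complex.continuous_exp.tendsto L).comp hL
    exact this.isBigO_one ℝ
  let φ : SL(2, ℤ) → ℂ → ℂ := fun δ => cuspFunction N (E δ)
  have hφd : ∀ δ, DifferentiableOn ℂ (φ δ) (Metric.ball 0 1) := fun δ =>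
    differentiableOn_cuspFunction_ball hN (hEper δ) (hEm δ) (hEbdd δ)
  have hφE : ∀ δ (w : ℍ), φ δ (Function.Periodic.qParam N w) = E δ w := fun δ w =>
    eq_cuspFunction w hN.ne' (hEper δ)
  -- coset representatives
  let d : SL(2, ℤ) ⧸ Gamma0 N → SL(2, ℤ) := fun x => (Quotient.out x)⁻¹
  have hd : ∀ δ : SL(2, ℤ), ∃ x, ∀ w : ℍ, ‖E δ w‖ = ‖E (d x) w‖ := by
    intro δ
    refine ⟨QuotientGroup.mk δ⁻¹, fun w => ?_⟩
    obtain ⟨g, hg⟩ := QuotientGroup.mk_out_eq_mul (Gamma0 N) δ⁻¹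
    have hδ : δ = (g : SL(2, ℤ)) * d (QuotientGroup.mk δ⁻¹) := by
      simp only [d, hg]
      group
    simp only [E, Complex.norm_exp]
    conv_lhs => rw [hδ, mul_smul]
    rw [hinv g g.2]
  -- the compact set
  set r : ℝ := Real.exp (-Real.pi / N) with hr
  have hr1 : r < 1 := by
    rw [hr, Real.exp_lt_one_iff]
    exact div_neg_of_neg_of_pos (by simpa using Real.pi_pos) hN
  have hr0 : 0 ≤ r := (Real.exp_pos _).le
  have hK : ∀ x, ∃ t ∈ Metric.closedBall (0 : ℂ) r,
      IsMaxOn (fun q => ‖φ (d x) q‖) (Metric.closedBall (0 : ℂ) r) t := by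
    intro x
    apply (isCompact_closedBall (0 : ℂ) r).exists_isMaxOn ⟨0, by simpa using hr0⟩
    exact ((hφd (d x)).continuousOn.mono (Metric.closedBall_subset_ball hr1)).norm
  choose t htK htmax using hK
  obtain ⟨x₀, hx₀⟩ := Finite.exists_max (fun x => ‖φ (d x) (t x)‖)
  have hmax : IsMaxOn (norm ∘ φ (d x₀)) (Metric.ball 0 1) (t x₀) := by
    intro q hq
    simp only [Function.comp_apply, Set.mem_ofPred_eq]
    rcases eq_or_ne q 0 with rfl | hq0
    · exact htmax x₀ (by simpa using hr0)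
    · have hq1 : ‖q‖ < 1 := by simpa using hq
      have him := Function.Periodic.im_invQParam_pos_of_norm_lt_one hN hq1 hq0
      set z : ℍ := ⟨_, him⟩ with hz
      have hqz : Function.Periodic.qParam N (z : ℂ) = q :=
        Function.Periodic.qParam_right_inv hN.ne' hq0
      obtain ⟨g, hg⟩ := ModularGroup.exists_one_half_le_im_smul z
      obtain ⟨x, hx⟩ := hd (d x₀ * g⁻¹)
      have h1 : E (d x₀) z = E (d x₀ * g⁻¹) (g • z) := by
        simp only [E, mul_smul, inv_smul_smul]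
      calc ‖φ (d x₀) q‖ = ‖E (d x₀) z‖ := by rw [← hqz, hφE]
        _ = ‖E (d x) (g • z)‖ := by rw [h1, hx]
        _ = ‖φ (d x) (Function.Periodic.qParam N ((g • z : ℍ) : ℂ))‖ := by rw [hφE]
        _ ≤ ‖φ (d x) (t x)‖ := htmax x (by
            simpa using norm_qParam_le_of_one_half_le_im' hN hg)
        _ ≤ ‖φ (d x₀) (t x₀)‖ := hx₀ x
  have hconst := Complex.eq_const_of_exists_max (hφd (d x₀))
    (Metric.closedBall_subset_ball hr1 (htK x₀)) hmax
  set c : ℂ := φ (d x₀) (t x₀) with hc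
  have hE : ∀ w : ℍ, E (d x₀) w = c := by
    intro w
    rw [← hφE]
    exact hconst (by simpa using Function.Periodic.norm_qParam_lt_one hN w.im_pos)
  have hexp : ∀ w : ℍ, Complex.exp (A w) = c := by
    intro w
    have := hE ((d x₀)⁻¹ • w)
    simpa only [E, smul_inv_smul] using this
  intro τ
  have h1 : HasDerivAt (fun z => Complex.exp ((A ∘ ofComplex) z))
      (Complex.exp ((A ∘ ofComplex) τ) * a τ) τ := (hA τ).cexp
  have h2 : HasDerivAt (fun z => Complex.exp ((A ∘ ofComplex) z)) 0 τ := by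
    apply (hasDerivAt_const (τ : ℂ) c).congr_of_eventuallyEq
    filter_upwards with z
    exact hexp _
  have h3 := h1.unique h2
  exact (mul_eq_zero.1 h3).resolve_left (Complex.exp_ne_zero _)

end Fermat.Agent.S21
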