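import Fermat.Agent.S21.Interface

set_option autoImplicit false

open UpperHalfPlane CongruenceSubgroup Filter Topology ModularCurve ModularCurve.Period
open scoped MatrixGroups ModularForm Manifold

namespace Fermat.Agent.S21

namespace PeriodMF

/-- `F` is a holomorphic primitive of `f` on the upper half plane. -/
def IsPrim (F f : ℍ → ℂ) : Prop := ∀ τ : ℍ, HasDerivAt (F ∘ ofComplex) (f τ) ↑τ

lemma hasDerivAt_coe_ofComplex (τ : ℍ) :
    HasDerivAt (fun w : ℂ => ((ofComplex w : ℍ) : ℂ)) 1 ↑τ := by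
  have h : (fun w : ℂ => ((ofComplex w : ℍ) : ℂ)) =ᶠ[𝓝 (τ : ℂ)] fun w => w := by
    filter_upwards [isOpen_upperHalfPlaneSet.mem_nhds τ.2] with w hw
    exact congrArg _ (ofComplex_apply_of_im_pos hw)
  exact (hasDerivAt_id _).congr_of_eventuallyEq h

lemma IsPrim.add {F G f g : ℍ → ℂ} (hF : IsPrim F f) (hG : IsPrim G g) :
    IsPrim (F + G) (f + g) := fun τ => (hF τ).add (hG τ)

lemma IsPrim.sub {F G f g : ℍ → ℂ} (hF : IsPrim F f) (hG : IsPrim G g) :
    IsPrim (F - G) (f - g) := fun τ => (hF τ).sub (hG τ)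

lemma IsPrim.const_smul {F f : ℍ → ℂ} (c : ℂ) (hF : IsPrim F f) :
    IsPrim (c • F) (c • f) := fun τ => (hF τ).const_smul c

lemma isPrim_linear (a : ℂ) : IsPrim (fun z : ℍ => a * (z : ℂ)) (fun _ => a) := fun τ => by
  have h := (hasDerivAt_coe_ofComplex τ).const_mul a
  rw [mul_one] at h
  exact h

/-- a periodic, holomorphic, bounded function has a limit at `i∞`. -/
lemma tendsto_valueAtInfty {g : ℍ → ℂ} {h : ℝ} (hh : 0 < h)
    (hper : Function.Periodic (g ∘ ofComplex) h) (hhol : MDiff g) (hbdd : IsBoundedAtImInfty g) :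
    Tendsto g atImInfty (𝓝 (valueAtInfty g)) := by
  have hanal := analyticAt_cuspFunction_zero hh hper hhol hbdd
  rw [← cuspFunction_apply_zero hh hanal hper]
  exact (hanal.continuousAt.tendsto.comp (qParam_tendsto_atImInfty hh)).congr
    (fun τ ↦ eq_cuspFunction τ hh.ne' hper)

lemma periodic_comp_ofComplex_of_vadd {g : ℍ → ℂ} {h : ℝ} (hg : ∀ z : ℍ, g (h +ᵥ z) = g z) :
    Function.Periodic (g ∘ ofComplex) h := by
  intro w
  by_cases hw : 0 < w.im
  · have hw' : 0 < (w + h).im := by simpa using hw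
    simp only [Function.comp_apply, ofComplex_apply_of_im_pos hw', ofComplex_apply_of_im_pos hw]
    rw [← hg ⟨w, hw⟩]
    congr 1
    ext
    simp [add_comm]
  · have hw' : ¬ 0 < (w + h).im := by simpa using hw
    simp only [Function.comp_apply]
    rw [ofComplex_apply_of_im_nonpos (not_lt.mp hw), ofComplex_apply_of_im_nonpos (not_lt.mp hw')]

/-- primitives of periodic, holomorphic, bounded functions. -/
lemma exists_prim (h1 : Stmt_exists_primitive_of_periodic) {g : ℍ → ℂ} {h : ℝ} (hh : 0 < h)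
    (hg : ∀ z : ℍ, g (h +ᵥ z) = g z) (hhol : MDiff g) (hbdd : IsBoundedAtImInfty g) :
    ∃ G, IsPrim G g := by
  have hlim := tendsto_valueAtInfty hh (periodic_comp_ofComplex_of_vadd hg) hhol hbdd
  obtain ⟨F₀, hF₀, -⟩ := h1 h hh (fun z => g z - valueAtInfty g)
    (hhol.sub mdifferentiable_const) (fun z => by simp only [hg])
    (by
      show Tendsto _ _ (𝓝 0)
      simpa using hlim.sub_const (valueAtInfty g))
  refine ⟨F₀ + fun z : ℍ => valueAtInfty g * (z : ℂ), ?_⟩
  have h := IsPrim.add (F := F₀) hF₀ (isPrim_linear (valueAtInfty g))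
  have e : ((fun z => g z - valueAtInfty g) + fun _ => valueAtInfty g) = g := by
    ext z; simp
  rwa [e] at h

/-- two primitives of the same function differ by a constant. -/
lemma IsPrim.sub_const (h2a : Stmt_const_of_hasDerivAt_zero) {F G f : ℍ → ℂ} (hF : IsPrim F f)
    (hG : IsPrim G f) (z w : ℍ) : F z - G z = F w - G w := by
  have h : IsPrim (F - G) (f - f) := hF.sub hG
  rw [sub_self] at h
  exact h2a (F - G) h z w

/-- If a primitive of `g` is `h`-periodic, the limit of `g` at `i∞` vanishes. -/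
lemma limit_zero_of_periodic_prim {g H : ℍ → ℂ} {h : ℝ} (hh : 0 < h) (hH : IsPrim H g)
    (hHper : ∀ z : ℍ, H (h +ᵥ z) = H z) {a : ℂ} (hlim : Tendsto g atImInfty (𝓝 a)) : a = 0 := by
  by_contra ha
  have hna : 0 < ‖a‖ := norm_pos_iff.mpr ha
  have hε : 0 < ‖a‖ / 2 := by positivity
  have hev : ∀ᶠ z in atImInfty, ‖g z - a‖ < ‖a‖ / 2 := by
    have := (Metric.tendsto_nhds.mp hlim) _ hε
    simpa [dist_eq_norm] using this
  obtain ⟨A, hA⟩ := (atImInfty_mem _).mp hev
  set B : ℝ := max A 1 with hB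
  have hB1 : (1 : ℝ) ≤ B := le_max_right _ _
  have hBA : A ≤ B := le_max_left _ _
  let s : Set ℂ := {w | B ≤ w.im}
  have hs : Convex ℝ s := convex_halfSpace_im_ge B
  let K : ℂ → ℂ := fun w => (H ∘ ofComplex) w - a * w
  have hpos : ∀ w ∈ s, 0 < w.im := fun w hw => lt_of_lt_of_le one_pos (hB1.trans hw)
  have hK : ∀ w ∈ s, HasDerivWithinAt K (g (ofComplex w) - a) s w := by
    intro w hw
    have h1 := hH ⟨w, hpos w hw⟩
    rw [ofComplex_apply_of_im_pos (hpos w hw)]
    have h2 : HasDerivAt (fun w : ℂ => a * w) a w := by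
      simpa using (hasDerivAt_id w).const_mul a
    exact (h1.sub h2).hasDerivWithinAt
  have bound : ∀ w ∈ s, ‖g (ofComplex w) - a‖ ≤ ‖a‖ / 2 := by
    intro w hw
    rw [ofComplex_apply_of_im_pos (hpos w hw)]
    exact (hA ⟨w, hpos w hw⟩ (hBA.trans hw)).le
  have hx : (B * Complex.I : ℂ) ∈ s := by simp [s]
  have hy : (B * Complex.I + h : ℂ) ∈ s := by simp [s]
  have key := hs.norm_image_sub_le_of_norm_hasDerivWithin_le hK bound hx hy
  have e1 : (H ∘ ofComplex) (B * Complex.I + h) = (H ∘ ofComplex) (B * Complex.I) := by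
    simp only [Function.comp_apply]
    rw [ofComplex_apply_of_im_pos (hpos _ hx), ofComplex_apply_of_im_pos (hpos _ hy),
      ← hHper ⟨_, hpos _ hx⟩]
    congr 1
    ext
    simp [add_comm]
  have e2 : K (B * Complex.I + h) - K (B * Complex.I) = - (a * h) := by
    simp only [K, e1]
    ring
  rw [e2, norm_neg, norm_mul, add_sub_cancel_left, Complex.norm_real, Real.norm_of_nonneg hh.le]
    at key
  nlinarith [mul_pos hna hh]

section Level

variable {N : ℕ} [NeZero N]

omit [NeZero N] in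
lemma slash_eq_self (f : ModularForm (Gamma0 N) 2) {γ : SL(2, ℤ)} (hγ : γ ∈ Gamma0 N) :
    (⇑f ∣[(2 : ℤ)] γ) = ⇑f := by
  rw [ModularForm.SL_slash]
  exact SlashInvariantForm.slash_action_eqn f _ (Subgroup.mem_map.mpr ⟨γ, hγ, rfl⟩)

/-- the parabolic element `δ T^N δ⁻¹`. -/
noncomputable def conjT (N : ℕ) (δ : SL(2, ℤ)) : SL(2, ℤ) := δ * ModularGroup.T ^ (N : ℤ) * δ⁻¹

lemma conjT_mem (N : ℕ) (δ : SL(2, ℤ)) : conjT N δ ∈ Gamma0 N := by
  have h1 : ModularGroup.T ^ (N : ℤ) ∈ Gamma N := by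
    simpa using ModularGroup_T_pow_mem_Gamma N N dvd_rfl
  have h2 := (Gamma_normal N).conj_mem _ h1 δ
  exact Gamma0_mem.mpr (Gamma_mem.mp h2).2.2.1

lemma conjT_trace (N : ℕ) (δ : SL(2, ℤ)) :
    ((conjT N δ : SL(2, ℤ)) : Matrix (Fin 2) (Fin 2) ℤ).trace ^ 2 = 4 := by
  have h : ((conjT N δ : SL(2, ℤ)) : Matrix (Fin 2) (Fin 2) ℤ).trace = 2 := by
    rw [conjT, Matrix.SpecialLinearGroup.coe_mul, Matrix.SpecialLinearGroup.coe_mul,
      Matrix.trace_mul_cycle, ← Matrix.SpecialLinearGroup.coe_mul, inv_mul_cancel,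
      Matrix.SpecialLinearGroup.coe_one, one_mul, ModularGroup.coe_T_zpow,
      Matrix.trace_fin_two_of]
    norm_num
  rw [h]; norm_num

lemma conjT_smul (N : ℕ) (δ : SL(2, ℤ)) (z : ℍ) :
    conjT N δ • (δ • z) = δ • ((N : ℝ) +ᵥ z) := by
  rw [conjT, ← mul_smul, inv_mul_cancel_right, mul_smul, modular_T_zpow_smul]
  simp

omit [NeZero N] in
lemma slash_periodic (f : ModularForm (Gamma0 N) 2) (δ : SL(2, ℤ)) (z : ℍ) :
    (⇑f ∣[(2 : ℤ)] δ) ((N : ℝ) +ᵥ z) = (⇑f ∣[(2 : ℤ)] δ) z := by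
  have h1 : ((⇑f ∣[(2 : ℤ)] δ) ∣[(2 : ℤ)] (ModularGroup.T ^ (N : ℤ))) = (⇑f ∣[(2 : ℤ)] δ) := by
    rw [← SlashAction.slash_mul]
    have : δ * ModularGroup.T ^ (N : ℤ) = conjT N δ * δ := by
      rw [conjT, inv_mul_cancel_right]
    rw [this, SlashAction.slash_mul, slash_eq_self f (conjT_mem N δ)]
  have h2 := congrFun h1 z
  rw [ModularForm.SL_slash_apply, modular_T_zpow_smul] at h2
  have h3 : denom (ModularGroup.T ^ (N : ℤ) : SL(2, ℤ)) z = 1 := by
    rw [ModularGroup.denom_apply, ModularGroup.coe_T_zpow]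
    simp
  rw [h3] at h2
  simpa using h2

lemma exists_prim_MF (h1 : Stmt_exists_primitive_of_periodic) (f : ModularForm (Gamma0 N) 2) :
    ∃ F, IsPrim F f := by
  have h := slash_periodic f 1
  simp only [SlashAction.slash_one] at h
  exact exists_prim h1 (h := (N : ℝ)) (by exact_mod_cast NeZero.pos N) h
    (ModularFormClass.holo f) (ModularFormClass.bdd_at_infty f)

omit [NeZero N] in
/-- the increment of a primitive along `γ ∈ Γ₀(N)` does not depend on the base point. -/
lemma IsPrim.incr_const (h2a : Stmt_const_of_hasDerivAt_zero) (h2b : Stmt_hasDerivAt_comp_smul)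
    (f : ModularForm (Gamma0 N) 2) {F : ℍ → ℂ} (hF : IsPrim F f) {γ : SL(2, ℤ)}
    (hγ : γ ∈ Gamma0 N) (z w : ℍ) : F (γ • z) - F z = F (γ • w) - F w := by
  have h : IsPrim (fun w : ℍ => F (γ • w)) f := by
    intro τ
    have := h2b F f hF γ τ
    rwa [slash_eq_self f hγ] at this
  exact h.sub_const h2a hF z w

omit [NeZero N] in
lemma IsPrim.incr_indep (h2a : Stmt_const_of_hasDerivAt_zero) (h2b : Stmt_hasDerivAt_comp_smul)
    (f : ModularForm (Gamma0 N) 2) {F G : ℍ → ℂ} (hF : IsPrim F f) (hG : IsPrim G f)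
    {γ : SL(2, ℤ)} (hγ : γ ∈ Gamma0 N) (z w : ℍ) : F (γ • z) - F z = G (γ • w) - G w := by
  rw [hF.incr_const h2a h2b f hγ z w]
  have := hF.sub_const h2a hG (γ • w) w
  linear_combination this

/-- a modular form all of whose `SL(2,ℤ)`-translates vanish at `i∞` is a cusp form. -/
lemma exists_cuspForm_of_slash_zero (f : ModularForm (Gamma0 N) 2)
    (h : ∀ δ : SL(2, ℤ), IsZeroAtImInfty (⇑f ∣[(2 : ℤ)] δ)) :
    ∃ g : CuspForm (Gamma0 N) 2, ∀ z, f z = g z := by
  have hc : ModularForm.IsCuspForm f := by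
    rw [ModularForm.isCuspForm_iff]
    intro c hc
    rw [Subgroup.IsArithmetic.isCusp_iff_isCusp_SL2Z] at hc
    rw [OnePoint.isZeroAt_iff_forall_SL2Z hc]
    intro γ _
    exact h γ
  obtain ⟨g, hg⟩ := hc
  exact ⟨g, fun z => by rw [← hg]; rfl⟩

end Level

end PeriodMF

open PeriodMF in
/-- PER-8 -/
theorem exists_periodMF (h1 : Stmt_exists_primitive_of_periodic)
    (h2a : Stmt_const_of_hasDerivAt_zero) (h2b : Stmt_hasDerivAt_comp_smul)
    (h3 : Stmt_exists_hasEquivariantPrimitive) (h4 : Stmt_periodMap_apply) :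
    Stmt_exists_periodMF := by
  intro N _
  classical
  choose P hP using fun f : ModularForm (Gamma0 N) 2 => exists_prim_MF h1 f
  let perHom : ModularForm (Gamma0 N) 2 → (Additive (Gamma0 N) →+ ℂ) := fun f =>
    { toFun := fun γ => P f (((Additive.toMul γ : Gamma0 N) : SL(2, ℤ)) • I) - P f I
      map_zero' := by simp
      map_add' := fun γ δ => by
        have e : (((Additive.toMul (γ + δ) : Gamma0 N) : SL(2, ℤ)) • I : ℍ)
            = ((Additive.toMul γ : Gamma0 N) : SL(2, ℤ)) •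
              (((Additive.toMul δ : Gamma0 N) : SL(2, ℤ)) • I) := by
          rw [toMul_add, Subgroup.coe_mul, mul_smul]
        rw [e]
        have := (hP f).incr_const h2a h2b f (Additive.toMul γ).2
          (((Additive.toMul δ : Gamma0 N) : SL(2, ℤ)) • I) I
        linear_combination this }
  have hper : ∀ (f : ModularForm (Gamma0 N) 2) (F : ℍ → ℂ), IsPrim F f →
      ∀ (γ : Gamma0 N) (z : ℍ),
      perHom f (Additive.ofMul γ) = F ((γ : SL(2, ℤ)) • z) - F z := by
    intro f F hF γ z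
    exact (hP f).incr_indep h2a h2b f hF γ.2 I z
  let per : ModularForm (Gamma0 N) 2 →ₗ[ℂ] (Additive (Gamma0 N) →+ ℂ) :=
    { toFun := perHom
      map_add' := fun f g => by
        refine AddMonoidHom.ext fun γ => ?_
        obtain ⟨γ, rfl⟩ := Additive.ofMul.surjective γ
        have hfg : IsPrim (P f + P g) (f + g : ModularForm (Gamma0 N) 2) := by
          rw [FunLike.coe_add]
          exact (hP f).add (hP g)
        have h := hper (f + g) _ hfg γ I
        have hf := hper f _ (hP f) γ I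
        have hg := hper g _ (hP g) γ I
        simp only [Pi.add_apply] at h hf hg
        rw [AddMonoidHom.add_apply, h, hf, hg]
        ring
      map_smul' := fun c f => by
        refine AddMonoidHom.ext fun γ => ?_
        obtain ⟨γ, rfl⟩ := Additive.ofMul.surjective γ
        have hcf : IsPrim (c • P f) (c • f : ModularForm (Gamma0 N) 2) := by
          rw [FunLike.coe_smul]
          exact (hP f).const_smul c
        have h := hper (c • f) _ hcf γ I
        have hf := hper f _ (hP f) γ I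
        simp only [Pi.smul_apply, smul_eq_mul] at h hf
        rw [RingHom.id_apply, AddMonoidHom.smul_apply, h, hf, smul_eq_mul]
        ring }
  refine ⟨per, fun f => ⟨P f, hP f, hper f (P f) (hP f)⟩, ?_, ?_⟩
  · intro f g hfg
    obtain ⟨G, hG⟩ := h3 N g
    have hGf : IsPrim G f := fun τ => by rw [hfg τ]; exact hG.1 τ
    refine AddMonoidHom.ext fun γ => ?_
    obtain ⟨γ, rfl⟩ := Additive.ofMul.surjective γ
    have h := hper f G hGf γ I
    have h' := h4 N g G hG γ I
    show perHom f (Additive.ofMul γ) = _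
    rw [h, h']
  · intro f hf
    apply exists_cuspForm_of_slash_zero
    intro δ
    have hN : (0 : ℝ) < N := by exact_mod_cast NeZero.pos N
    have hhol : MDiff (⇑f ∣[(2 : ℤ)] δ) := (ModularFormClass.holo f).slash 2 _
    have hbdd := ModularFormClass.bdd_at_infty_slash f δ
    have hlim := tendsto_valueAtInfty hN (periodic_comp_ofComplex_of_vadd (slash_periodic f δ))
      hhol hbdd
    have hH : IsPrim (fun w => P f (δ • w)) (⇑f ∣[(2 : ℤ)] δ) := fun τ => h2b (P f) f (hP f) δ τ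
    have hHper : ∀ z : ℍ, P f (δ • ((N : ℝ) +ᵥ z)) = P f (δ • z) := by
      intro z
      have h0 : perHom f (Additive.ofMul ⟨conjT N δ, conjT_mem N δ⟩) = 0 :=
        hf ⟨conjT N δ, conjT_mem N δ⟩ (conjT_trace N δ)
      have h1 := hper f (P f) (hP f) ⟨conjT N δ, conjT_mem N δ⟩ (δ • z)
      rw [h0, conjT_smul] at h1
      exact (sub_eq_zero.mp h1.symm)
    have ha := limit_zero_of_periodic_prim hN hH hHper hlim
    rw [ha] at hlim
    exact hlim

end Fermat.Agent.S21
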